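import Mathlib

set_option autoImplicit false

/-!
# S22: `Γ₀(N)` is finitely generated, and the abstract "cocycle ⇒ finitely generated lattice" lemma
-/

namespace Fermat.Agent.S22.Gamma0FG

open scoped MatrixGroups
open CongruenceSubgroup

/-- `SL(2, ℤ)` is a finitely generated group (generated by `S` and `T`). -/
instance instFGSL2Z : Group.FG SL(2, ℤ) := by
  rw [Group.fg_iff]
  exact ⟨{ModularGroup.S, ModularGroup.T}, SpecialLinearGroup.SL2Z_generators, by simp⟩

/-- `Γ₀(N)` is a finitely generated group (Schreier). -/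
instance instFGGamma0 (N : ℕ) [NeZero N] : Group.FG (Gamma0 N) :=
  Subgroup.fg_of_index_ne_zero (Gamma0 N)

theorem fg_Gamma0 (N : ℕ) [NeZero N] : (Gamma0 N).FG :=
  (Group.fg_iff_subgroup_fg _).mp (instFGGamma0 N)

/-- A finite generating set of `Γ₀(N)` inside `SL(2, ℤ)`. -/
theorem exists_finset_closure_eq_Gamma0 (N : ℕ) [NeZero N] :
    ∃ s : Finset SL(2, ℤ), (∀ g ∈ s, g ∈ Gamma0 N) ∧ Subgroup.closure (s : Set SL(2, ℤ)) = Gamma0 N := by
  obtain ⟨s, hs⟩ := fg_Gamma0 N
  refine ⟨s, fun g hg => ?_, hs⟩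
  rw [← hs]
  exact Subgroup.subset_closure hg

/-- A finite generating set of the group `Γ₀(N)`. -/
theorem exists_finset_closure_eq_top (N : ℕ) [NeZero N] :
    ∃ s : Finset (Gamma0 N), Subgroup.closure (s : Set (Gamma0 N)) = ⊤ :=
  Group.fg_def.mp (instFGGamma0 N)

section Cocycle

variable {Γ M A : Type*} [Group Γ] [AddCommGroup M] [AddCommGroup A]

/-- **Abstract cocycle lemma.** Let `Γ` be a group, `act : Γ → M →+ M` additive maps preserving a
subgroup `M₀` with `act 1 = id` on `M₀`, and `c : Γ → M →+ A` a "crossed homomorphism" on `M₀`: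
`c (g * h) P = c g P + c h (act g P)`. If `Γ` is generated by `S`, every value `c g P`
(`P ∈ M₀`) lies in the subgroup generated by the `c s Q`, `s ∈ S`, `Q ∈ M₀`. -/
theorem cocycle_mem_closure (M₀ : AddSubgroup M) (act : Γ → M →+ M) (c : Γ → M →+ A)
    (hstab : ∀ g, ∀ P ∈ M₀, act g P ∈ M₀) (hone : ∀ P ∈ M₀, act 1 P = P)
    (hc : ∀ g h, ∀ P ∈ M₀, c (g * h) P = c g P + c h (act g P))
    (S : Set Γ) (hS : Subgroup.closure S = ⊤) (g : Γ) {P : M} (hP : P ∈ M₀) :
    c g P ∈ AddSubgroup.closure {a : A | ∃ s ∈ S, ∃ Q ∈ M₀, a = c s Q} := by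
  set L := AddSubgroup.closure {a : A | ∃ s ∈ S, ∃ Q ∈ M₀, a = c s Q} with hL
  have h1 : ∀ P ∈ M₀, c 1 P = 0 := by
    intro P hP
    have := hc 1 1 P hP
    rw [mul_one, hone P hP] at this
    simpa using this
  have key : ∀ g ∈ Subgroup.closure S, ∀ P ∈ M₀, c g P ∈ L := by
    intro g hg
    induction hg using Subgroup.closure_induction with
    | mem s hs =>
      intro P hP
      exact AddSubgroup.subset_closure ⟨s, hs, P, hP, rfl⟩
    | one =>
      intro P hP
      rw [h1 P hP]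
      exact L.zero_mem
    | mul x y _ _ hx hy =>
      intro P hP
      rw [hc x y P hP]
      exact L.add_mem (hx P hP) (hy _ (hstab x P hP))
    | inv x _ hx =>
      intro P hP
      have := hc x⁻¹ x P hP
      rw [inv_mul_cancel, h1 P hP] at this
      have h2 : c x⁻¹ P = - c x (act x⁻¹ P) := by
        rw [eq_neg_iff_add_eq_zero]
        exact this.symm
      rw [h2]
      exact L.neg_mem (hx _ (hstab x⁻¹ P hP))
  exact key g (hS ▸ Subgroup.mem_top g) P hP

/-- Reduction to generators of `M₀` as well. -/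
theorem cocycle_mem_closure_gens (B : Set M) (act : Γ → M →+ M) (c : Γ → M →+ A)
    (hstab : ∀ g, ∀ P ∈ AddSubgroup.closure B, act g P ∈ AddSubgroup.closure B)
    (hone : ∀ P ∈ AddSubgroup.closure B, act 1 P = P)
    (hc : ∀ g h, ∀ P ∈ AddSubgroup.closure B, c (g * h) P = c g P + c h (act g P))
    (S : Set Γ) (hS : Subgroup.closure S = ⊤) (g : Γ) {P : M} (hP : P ∈ AddSubgroup.closure B) :
    c g P ∈ AddSubgroup.closure {a : A | ∃ s ∈ S, ∃ b ∈ B, a = c s b} := by
  have h := cocycle_mem_closure (AddSubgroup.closure B) act c hstab hone hc S hS g hP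
  refine (AddSubgroup.closure_le _).mpr ?_ h
  rintro a ⟨s, hs, Q, hQ, rfl⟩
  induction hQ using AddSubgroup.closure_induction with
  | mem b hb => exact AddSubgroup.subset_closure ⟨s, hs, b, hb, rfl⟩
  | zero => rw [map_zero]; exact AddSubgroup.zero_mem _
  | add x y _ _ hx hy => rw [map_add]; exact AddSubgroup.add_mem _ hx hy
  | neg x _ hx => rw [map_neg]; exact AddSubgroup.neg_mem _ hx

/-- The lattice generated by all values of the cocycle is finitely generated. -/
theorem cocycle_closure_fg (B : Set M) (hB : B.Finite) (act : Γ → M →+ M) (c : Γ → M →+ A)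
    (hstab : ∀ g, ∀ P ∈ AddSubgroup.closure B, act g P ∈ AddSubgroup.closure B)
    (hone : ∀ P ∈ AddSubgroup.closure B, act 1 P = P)
    (hc : ∀ g h, ∀ P ∈ AddSubgroup.closure B, c (g * h) P = c g P + c h (act g P))
    (S : Set Γ) (hSfin : S.Finite) (hS : Subgroup.closure S = ⊤) :
    (AddSubgroup.closure {a : A | ∃ g : Γ, ∃ P ∈ AddSubgroup.closure B, a = c g P}).FG := by
  have hfin : {a : A | ∃ s ∈ S, ∃ b ∈ B, a = c s b}.Finite := by
    have : {a : A | ∃ s ∈ S, ∃ b ∈ B, a = c s b} = (fun p : Γ × M => c p.1 p.2) '' (S ×ˢ B) := by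
      ext a
      constructor
      · rintro ⟨s, hs, b, hb, rfl⟩
        exact ⟨(s, b), ⟨hs, hb⟩, rfl⟩
      · rintro ⟨⟨s, b⟩, ⟨hs, hb⟩, rfl⟩
        exact ⟨s, hs, b, hb, rfl⟩
    rw [this]
    exact (hSfin.prod hB).image _
  have heq : AddSubgroup.closure {a : A | ∃ g : Γ, ∃ P ∈ AddSubgroup.closure B, a = c g P}
      = AddSubgroup.closure {a : A | ∃ s ∈ S, ∃ b ∈ B, a = c s b} := by
    apply le_antisymm
    · refine (AddSubgroup.closure_le _).mpr ?_
      rintro a ⟨g, P, hP, rfl⟩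
      exact cocycle_mem_closure_gens B act c hstab hone hc S hS g hP
    · refine AddSubgroup.closure_mono ?_
      rintro a ⟨s, _, b, hb, rfl⟩
      exact ⟨s, b, AddSubgroup.subset_closure hb, rfl⟩
  rw [heq]
  exact (AddSubgroup.fg_iff _).mpr ⟨_, rfl, hfin⟩

/-- `ℤ`-span version of `cocycle_closure_fg`. -/
theorem cocycle_span_fg (B : Set M) (hB : B.Finite) (act : Γ → M →+ M) (c : Γ → M →+ A)
    (hstab : ∀ g, ∀ P ∈ AddSubgroup.closure B, act g P ∈ AddSubgroup.closure B)
    (hone : ∀ P ∈ AddSubgroup.closure B, act 1 P = P)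
    (hc : ∀ g h, ∀ P ∈ AddSubgroup.closure B, c (g * h) P = c g P + c h (act g P))
    (S : Set Γ) (hSfin : S.Finite) (hS : Subgroup.closure S = ⊤) :
    (Submodule.span ℤ {a : A | ∃ g : Γ, ∃ P ∈ AddSubgroup.closure B, a = c g P}).FG := by
  have h := cocycle_closure_fg B hB act c hstab hone hc S hSfin hS
  rw [Submodule.fg_iff_addSubgroup_fg, Submodule.span_int_eq_addSubgroupClosure]
  exact h

end Cocycle

end Fermat.Agent.S22.Gamma0FG
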