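import Mathlib

/-!
# Decaying primitives of cusp-form-like functions on the upper half plane

A function `g` on the upper half plane is `CuspLike h` if it is a holomorphic function of
`q = exp (2 π i z / h)` on the open unit disc that vanishes at `q = 0`.  Such functions have
primitives of the same kind; products `P * g` with `P` a polynomial have primitives tending to
`0` along every vertical line, and such normalised primitives are unique.
-/

set_option autoImplicit false

noncomputable section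

namespace Fermat.Agent.S22.Primitive

open Complex Filter Topology Metric Function

/-- The upper half plane as a subset of `ℂ`. -/
def U : Set ℂ := {z | 0 < z.im}

theorem isOpen_U : IsOpen U := isOpen_lt continuous_const Complex.continuous_im

theorem convex_U : Convex ℝ U := by
  intro x hx y hy a b ha hb hab
  simp only [U, Set.mem_ofPred_eq] at *
  simp only [add_im, Complex.real_smul, mul_im, ofReal_re, ofReal_im, zero_mul, add_zero]
  rcases ha.eq_or_lt with rfl | ha'
  · simp only [zero_add] at hab; subst hab; simpa using hy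
  · have h1 : 0 < a * x.im := mul_pos ha' hx
    have h2 : 0 ≤ b * y.im := mul_nonneg hb hy.le
    linarith

theorem isPreconnected_U : IsPreconnected U := convex_U.isPreconnected

/-- `g` is, on the upper half plane, a holomorphic function of `q = exp (2 π i z / h)`
on the unit disc, vanishing at `q = 0`. -/
def CuspLike (h : ℝ) (g : ℂ → ℂ) : Prop :=
  ∃ G : ℂ → ℂ, DifferentiableOn ℂ G (ball 0 1) ∧ G 0 = 0 ∧
    ∀ z : ℂ, 0 < z.im → g z = G (Periodic.qParam h z)

theorem hasDerivAt_qParam (h : ℝ) (z : ℂ) :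
    HasDerivAt (Periodic.qParam h) (2 * Real.pi * I / h * Periodic.qParam h z) z := by
  have h1 : HasDerivAt (fun w : ℂ => 2 * (Real.pi : ℂ) * I * w / h) (2 * Real.pi * I / h) z := by
    have := ((hasDerivAt_id z).const_mul (2 * (Real.pi : ℂ) * I)).div_const (h : ℂ)
    simpa using this
  have h2 := h1.cexp
  have h3 : (fun w : ℂ => cexp (2 * (Real.pi : ℂ) * I * w / h)) = Periodic.qParam h := by
    funext w; rfl
  rw [h3] at h2
  have h4 : 2 * (Real.pi : ℂ) * I / h * Periodic.qParam h z =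
      cexp (2 * (Real.pi : ℂ) * I * z / h) * (2 * Real.pi * I / h) := by
    unfold Periodic.qParam
    ring
  rw [h4]
  exact h2

theorem two_pi_I_div_ne_zero {h : ℝ} (hh : 0 < h) : (2 * (Real.pi : ℂ) * I / h) ≠ 0 := by
  have : (h : ℂ) ≠ 0 := by exact_mod_cast hh.ne'
  exact div_ne_zero Complex.two_pi_I_ne_zero this

/-- A `CuspLike` function has a `CuspLike` primitive. -/
theorem CuspLike.exists_primitive {h : ℝ} (hh : 0 < h) {g : ℂ → ℂ} (hg : CuspLike h g) :
    ∃ F : ℂ → ℂ, CuspLike h F ∧ ∀ z : ℂ, 0 < z.im → HasDerivAt F (g z) z := by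
  obtain ⟨G, hG, hG0, hgG⟩ := hg
  have hH : DifferentiableOn ℂ (dslope G 0) (ball 0 1) :=
    (Complex.differentiableOn_dslope (ball_mem_nhds 0 one_pos)).mpr hG
  obtain ⟨K, hK0, hK⟩ := (hH.isExactOn_ball).with_val_at 0 0
  set c : ℂ := (2 * (Real.pi : ℂ) * I / h)⁻¹ with hc
  have hc' : c * (2 * (Real.pi : ℂ) * I / h) = 1 := inv_mul_cancel₀ (two_pi_I_div_ne_zero hh)
  refine ⟨fun z => c * K (Periodic.qParam h z), ⟨fun q => c * K q, ?_, ?_, fun z _ => rfl⟩, ?_⟩
  · intro q hq
    exact ((hK q hq).differentiableAt.const_mul c).differentiableWithinAt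
  · simp [hK0]
  · intro z hz
    have hq : Periodic.qParam h z ∈ ball (0 : ℂ) 1 := by
      simpa using Periodic.norm_qParam_lt_one hh hz
    have h1 := (hK _ hq).comp z (hasDerivAt_qParam h z)
    have h2 := h1.const_mul c
    have h3 : c * (dslope G 0 (Periodic.qParam h z) *
        (2 * (Real.pi : ℂ) * I / h * Periodic.qParam h z)) = g z := by
      have h4 := sub_smul_dslope G 0 (Periodic.qParam h z)
      simp only [sub_zero, smul_eq_mul, hG0] at h4
      rw [hgG z hz, ← h4]
      calc c * (dslope G 0 (Periodic.qParam h z) *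
            (2 * (Real.pi : ℂ) * I / h * Periodic.qParam h z))
          = (c * (2 * (Real.pi : ℂ) * I / h)) *
            (Periodic.qParam h z * dslope G 0 (Periodic.qParam h z)) := by ring
        _ = Periodic.qParam h z * dslope G 0 (Periodic.qParam h z) := by rw [hc', one_mul]
    rw [h3] at h2
    exact h2

/-- Two functions with the same derivative on the upper half plane differ by a constant. -/
theorem exists_const_of_hasDerivAt {φ F F' : ℂ → ℂ}
    (hF : ∀ z : ℂ, 0 < z.im → HasDerivAt F (φ z) z)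
    (hF' : ∀ z : ℂ, 0 < z.im → HasDerivAt F' (φ z) z) :
    ∃ C : ℂ, ∀ z : ℂ, 0 < z.im → F z - F' z = C := by
  have hd : DifferentiableOn ℂ (fun z => F z - F' z) U := fun z hz =>
    ((hF z hz).sub (hF' z hz)).differentiableAt.differentiableWithinAt
  have hd' : U.EqOn (deriv (fun z => F z - F' z)) 0 := by
    intro z hz
    have h1 : HasDerivAt (fun z => F z - F' z) (φ z - φ z) z := (hF z hz).sub (hF' z hz)
    rw [h1.deriv, sub_self]
    rfl
  obtain ⟨C, hC⟩ := isOpen_U.exists_is_const_of_deriv_eq_zero isPreconnected_U hd hd'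
  exact ⟨C, fun z hz => hC z hz⟩

/-- `F` is a primitive of `φ` on the upper half plane which tends to `0` along every vertical
line. -/
def IsNormPrim (φ F : ℂ → ℂ) : Prop :=
  (∀ z : ℂ, 0 < z.im → HasDerivAt F (φ z) z) ∧
    ∀ x : ℝ, Tendsto (fun y : ℝ => F (x + y * I)) atTop (𝓝 0)

theorem IsNormPrim.unique {φ F F' : ℂ → ℂ} (hF : IsNormPrim φ F) (hF' : IsNormPrim φ F') :
    ∀ z : ℂ, 0 < z.im → F z = F' z := by
  obtain ⟨C, hC⟩ := exists_const_of_hasDerivAt hF.1 hF'.1
  have h0 : Tendsto (fun y : ℝ => F ((0 : ℝ) + y * I) - F' ((0 : ℝ) + y * I)) atTop (𝓝 (0 - 0)) :=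
    (hF.2 0).sub (hF'.2 0)
  have h1 : ∀ᶠ y : ℝ in atTop, F ((0 : ℝ) + y * I) - F' ((0 : ℝ) + y * I) = C := by
    filter_upwards [eventually_gt_atTop 0] with y hy
    apply hC
    simpa using hy
  have h2 : Tendsto (fun y : ℝ => F ((0 : ℝ) + y * I) - F' ((0 : ℝ) + y * I)) atTop (𝓝 C) :=
    tendsto_const_nhds.congr' (h1.mono fun y hy => hy.symm)
  have hC0 : C = 0 := by
    have := tendsto_nhds_unique h2 h0
    simpa using this
  intro z hz
  have := hC z hz
  rw [hC0, sub_eq_zero] at this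
  exact this

theorem IsNormPrim.add {φ ψ F G : ℂ → ℂ} (hF : IsNormPrim φ F) (hG : IsNormPrim ψ G) :
    IsNormPrim (fun z => φ z + ψ z) (fun z => F z + G z) :=
  ⟨fun z hz => (hF.1 z hz).add (hG.1 z hz), fun x => by simpa using (hF.2 x).add (hG.2 x)⟩

theorem IsNormPrim.const_mul {φ F : ℂ → ℂ} (hF : IsNormPrim φ F) (c : ℂ) :
    IsNormPrim (fun z => c * φ z) (fun z => c * F z) :=
  ⟨fun z hz => (hF.1 z hz).const_mul c, fun x => by simpa using (hF.2 x).const_mul c⟩

theorem IsNormPrim.sub {φ ψ F G : ℂ → ℂ} (hF : IsNormPrim φ F) (hG : IsNormPrim ψ G) :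
    IsNormPrim (fun z => φ z - ψ z) (fun z => F z - G z) :=
  ⟨fun z hz => (hF.1 z hz).sub (hG.1 z hz), fun x => by simpa using (hF.2 x).sub (hG.2 x)⟩

theorem IsNormPrim.congr {φ ψ F : ℂ → ℂ} (hF : IsNormPrim φ F)
    (h : ∀ z : ℂ, 0 < z.im → φ z = ψ z) : IsNormPrim ψ F :=
  ⟨fun z hz => h z hz ▸ hF.1 z hz, hF.2⟩

theorem isNormPrim_zero : IsNormPrim (fun _ => 0) (fun _ => 0) :=
  ⟨fun z _ => hasDerivAt_const z 0, fun _ => tendsto_const_nhds⟩

/-- Exponential decay of a `CuspLike` function. -/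
theorem CuspLike.exp_bound {h : ℝ} (hh : 0 < h) {g : ℂ → ℂ} (hg : CuspLike h g) :
    ∃ C A : ℝ, 0 < A ∧ 0 ≤ C ∧
      ∀ z : ℂ, A ≤ z.im → ‖g z‖ ≤ C * Real.exp (-2 * Real.pi * z.im / h) := by
  obtain ⟨G, hG, hG0, hgG⟩ := hg
  have hH : DifferentiableOn ℂ (dslope G 0) (ball 0 1) :=
    (Complex.differentiableOn_dslope (ball_mem_nhds 0 one_pos)).mpr hG
  have hsub : closedBall (0 : ℂ) (1 / 2) ⊆ ball 0 1 := closedBall_subset_ball (by norm_num)
  have hcont : ContinuousOn (dslope G 0) (closedBall (0 : ℂ) (1 / 2)) :=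
    hH.continuousOn.mono hsub
  obtain ⟨C, hC⟩ := (isCompact_closedBall (0 : ℂ) (1 / 2)).exists_bound_of_continuousOn hcont
  have hC0 : 0 ≤ C := le_trans (norm_nonneg _) (hC 0 (by simp))
  -- choose A with exp (-2π A / h) ≤ 1/2
  refine ⟨C, h * Real.log 2 / (2 * Real.pi) + 1, ?_, hC0, ?_⟩
  · have : 0 < h * Real.log 2 / (2 * Real.pi) := by
      have := Real.log_pos (by norm_num : (1 : ℝ) < 2)
      positivity
    linarith
  · intro z hz
    have hzpos : 0 < z.im := by
      have : 0 < h * Real.log 2 / (2 * Real.pi) := by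
        have := Real.log_pos (by norm_num : (1 : ℝ) < 2)
        positivity
      linarith
    have hq : ‖Periodic.qParam h z‖ ≤ 1 / 2 := by
      rw [Periodic.norm_qParam]
      have h1 : Real.log 2 ≤ 2 * Real.pi * z.im / h := by
        have h2 : h * Real.log 2 / (2 * Real.pi) ≤ z.im := by linarith
        rw [div_le_iff₀ (by positivity)] at h2
        rw [le_div_iff₀ hh]
        linarith
      have h3 : Real.exp (-2 * Real.pi * z.im / h) ≤ Real.exp (-Real.log 2) := by
        apply Real.exp_le_exp.mpr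
        have : -2 * Real.pi * z.im / h = -(2 * Real.pi * z.im / h) := by ring
        rw [this]
        linarith
      rw [Real.exp_neg, Real.exp_log (by norm_num)] at h3
      simpa using h3
    have hq' : Periodic.qParam h z ∈ closedBall (0 : ℂ) (1 / 2) := by simpa using hq
    have h4 := sub_smul_dslope G 0 (Periodic.qParam h z)
    simp only [sub_zero, smul_eq_mul, hG0] at h4
    rw [hgG z hzpos, ← h4, norm_mul, mul_comm, Periodic.norm_qParam]
    exact mul_le_mul_of_nonneg_right (hC _ hq') (Real.exp_pos _).le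

/-- Polynomial times `CuspLike` tends to zero along vertical lines. -/
theorem CuspLike.tendsto_pow_mul {h : ℝ} (hh : 0 < h) {g : ℂ → ℂ} (hg : CuspLike h g)
    (j : ℕ) (x : ℝ) :
    Tendsto (fun y : ℝ => ((x : ℂ) + y * I) ^ j * g (x + y * I)) atTop (𝓝 0) := by
  obtain ⟨C, A, hA, hC0, hb⟩ := hg.exp_bound hh
  rw [tendsto_zero_iff_norm_tendsto_zero]
  set b : ℝ := 2 * Real.pi / h with hbdef
  have hbpos : 0 < b := by positivity
  have hlim : Tendsto (fun y : ℝ => (2 : ℝ) ^ j * C * (y ^ (j : ℝ) * Real.exp (-b * y)))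
      atTop (𝓝 ((2 : ℝ) ^ j * C * 0)) :=
    (tendsto_rpow_mul_exp_neg_mul_atTop_nhds_zero (j : ℝ) b hbpos).const_mul _
  rw [mul_zero] at hlim
  refine squeeze_zero' (Eventually.of_forall fun y => norm_nonneg _) ?_ hlim
  filter_upwards [eventually_ge_atTop A, eventually_ge_atTop |x|, eventually_ge_atTop 1]
    with y hyA hyx hy1
  have hy0 : 0 ≤ y := by linarith
  have him : ((x : ℂ) + y * I).im = y := by simp
  have h1 : ‖g (x + y * I)‖ ≤ C * Real.exp (-2 * Real.pi * y / h) := by
    have := hb (x + y * I) (by rw [him]; exact hyA)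
    rwa [him] at this
  have h2 : ‖(x : ℂ) + y * I‖ ≤ 2 * y := by
    calc ‖(x : ℂ) + y * I‖ ≤ ‖(x : ℂ)‖ + ‖(y : ℂ) * I‖ := norm_add_le _ _
      _ = |x| + |y| := by simp
      _ ≤ y + y := by rw [abs_of_nonneg hy0]; linarith
      _ = 2 * y := by ring
  have h3 : -2 * Real.pi * y / h = -b * y := by rw [hbdef]; ring
  rw [norm_mul, norm_pow]
  calc ‖(x : ℂ) + y * I‖ ^ j * ‖g (x + y * I)‖
      ≤ (2 * y) ^ j * (C * Real.exp (-2 * Real.pi * y / h)) := by
        apply mul_le_mul (pow_le_pow_left₀ (norm_nonneg _) h2 j) h1 (norm_nonneg _)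
        positivity
    _ = (2 : ℝ) ^ j * C * (y ^ (j : ℝ) * Real.exp (-b * y)) := by
        rw [h3, mul_pow, Real.rpow_natCast]; ring

theorem CuspLike.add {h : ℝ} {g₁ g₂ : ℂ → ℂ} (h₁ : CuspLike h g₁) (h₂ : CuspLike h g₂) :
    CuspLike h (fun z => g₁ z + g₂ z) := by
  obtain ⟨G₁, hd₁, h0₁, he₁⟩ := h₁
  obtain ⟨G₂, hd₂, h0₂, he₂⟩ := h₂
  exact ⟨fun q => G₁ q + G₂ q, hd₁.add hd₂, by simp [h0₁, h0₂],
    fun z hz => by simp only [he₁ z hz, he₂ z hz]⟩

theorem CuspLike.const_mul {h : ℝ} {g : ℂ → ℂ} (hg : CuspLike h g) (c : ℂ) :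
    CuspLike h (fun z => c * g z) := by
  obtain ⟨G, hd, h0, he⟩ := hg
  exact ⟨fun q => c * G q, hd.const_mul c, by simp [h0], fun z hz => by simp only [he z hz]⟩

theorem CuspLike.neg {h : ℝ} {g : ℂ → ℂ} (hg : CuspLike h g) :
    CuspLike h (fun z => -g z) := by
  simpa using hg.const_mul (-1)

theorem CuspLike.sub {h : ℝ} {g₁ g₂ : ℂ → ℂ} (h₁ : CuspLike h g₁) (h₂ : CuspLike h g₂) :
    CuspLike h (fun z => g₁ z - g₂ z) := by
  simpa [sub_eq_add_neg] using h₁.add h₂.neg

theorem cuspLike_zero (h : ℝ) : CuspLike h (fun _ => 0) :=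
  ⟨fun _ => 0, differentiableOn_const 0, rfl, fun _ _ => rfl⟩

theorem CuspLike.congr {h : ℝ} {g g' : ℂ → ℂ} (hg : CuspLike h g)
    (he : ∀ z : ℂ, 0 < z.im → g' z = g z) : CuspLike h g' := by
  obtain ⟨G, hd, h0, heq⟩ := hg
  exact ⟨G, hd, h0, fun z hz => by rw [he z hz, heq z hz]⟩

theorem CuspLike.differentiableAt {h : ℝ} (hh : 0 < h) {g : ℂ → ℂ} (hg : CuspLike h g)
    {z : ℂ} (hz : 0 < z.im) : DifferentiableAt ℂ g z := by
  obtain ⟨G, hd, -, heq⟩ := hg
  have hq : Periodic.qParam h z ∈ ball (0 : ℂ) 1 := by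
    simpa using Periodic.norm_qParam_lt_one hh hz
  have h1 : DifferentiableAt ℂ G (Periodic.qParam h z) :=
    hd.differentiableAt (isOpen_ball.mem_nhds hq)
  have h2 : DifferentiableAt ℂ (fun w => G (Periodic.qParam h w)) z :=
    h1.comp z (hasDerivAt_qParam h z).differentiableAt
  refine h2.congr_of_eventuallyEq ?_
  filter_upwards [isOpen_U.mem_nhds (show z ∈ U from hz)] with w hw
  exact heq w hw

theorem CuspLike.periodic {h : ℝ} (hh : 0 < h) {g : ℂ → ℂ} (hg : CuspLike h g)
    {z : ℂ} (hz : 0 < z.im) : g (z + h) = g z := by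
  obtain ⟨G, -, -, heq⟩ := hg
  have hz' : 0 < (z + h).im := by simpa using hz
  rw [heq z hz, heq _ hz']
  congr 1
  unfold Periodic.qParam
  have hne : (h : ℂ) ≠ 0 := by exact_mod_cast hh.ne'
  have : 2 * (Real.pi : ℂ) * I * (z + h) / h = 2 * Real.pi * I * z / h + 2 * Real.pi * I := by
    field_simp
  rw [this, Complex.exp_add, Complex.exp_two_pi_mul_I, mul_one]

/-- A cusp form, viewed as a function on `ℂ`, is `CuspLike` for any strict period. -/
theorem cuspLike_of_cuspFormClass {F : Type*} [FunLike F UpperHalfPlane ℂ]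
    {Γ : Subgroup (GL (Fin 2) ℝ)} {k : ℤ} [CuspFormClass F Γ k] (f : F) {h : ℝ} (hh : 0 < h)
    (hΓ : h ∈ Γ.strictPeriods) : CuspLike h (f ∘ UpperHalfPlane.ofComplex) := by
  refine ⟨UpperHalfPlane.cuspFunction h f, fun q hq => ?_, ?_, fun z hz => ?_⟩
  · exact (ModularFormClass.differentiableAt_cuspFunction f hh hΓ
      (by simpa using hq)).differentiableWithinAt
  · exact CuspFormClass.cuspFunction_apply_zero f hh hΓ
  · have := SlashInvariantFormClass.eq_cuspFunction f ⟨z, hz⟩ hΓ hh.ne'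
    simp only [Function.comp_apply, UpperHalfPlane.ofComplex_apply_of_im_pos hz]
    exact this.symm

/-- The class of finite sums of `z ^ i * g_i z` with `g_i` cusp-like (closed under changing the
function outside the upper half plane). -/
inductive PolyCuspLike (h : ℝ) : (ℂ → ℂ) → Prop
  | of_cuspLike {g : ℂ → ℂ} : CuspLike h g → PolyCuspLike h g
  | add {φ ψ : ℂ → ℂ} : PolyCuspLike h φ → PolyCuspLike h ψ → PolyCuspLike h (fun z => φ z + ψ z)
  | id_mul {φ : ℂ → ℂ} : PolyCuspLike h φ → PolyCuspLike h (fun z => z * φ z)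
  | congr {φ ψ : ℂ → ℂ} : PolyCuspLike h φ → (∀ z : ℂ, 0 < z.im → ψ z = φ z) → PolyCuspLike h ψ

theorem PolyCuspLike.const_mul {h : ℝ} {φ : ℂ → ℂ} (hφ : PolyCuspLike h φ) (c : ℂ) :
    PolyCuspLike h (fun z => c * φ z) := by
  induction hφ with
  | of_cuspLike hg => exact .of_cuspLike (hg.const_mul c)
  | add _ _ ih₁ ih₂ => exact (ih₁.add ih₂).congr fun z _ => by ring
  | id_mul _ ih => exact ih.id_mul.congr fun z _ => by ring
  | congr _ he ih => exact ih.congr fun z hz => by rw [he z hz]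

theorem PolyCuspLike.neg {h : ℝ} {φ : ℂ → ℂ} (hφ : PolyCuspLike h φ) :
    PolyCuspLike h (fun z => -φ z) :=
  (hφ.const_mul (-1)).congr fun z _ => by ring

theorem PolyCuspLike.sub {h : ℝ} {φ ψ : ℂ → ℂ} (hφ : PolyCuspLike h φ) (hψ : PolyCuspLike h ψ) :
    PolyCuspLike h (fun z => φ z - ψ z) :=
  (hφ.add hψ.neg).congr fun z _ => by ring

theorem PolyCuspLike.pow_mul {h : ℝ} {φ : ℂ → ℂ} (hφ : PolyCuspLike h φ) (j : ℕ) :
    PolyCuspLike h (fun z => z ^ j * φ z) := by
  induction j with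
  | zero => exact hφ.congr fun z _ => by simp
  | succ j ih => exact ih.id_mul.congr fun z _ => by ring

theorem polyCuspLike_zero (h : ℝ) : PolyCuspLike h (fun _ => 0) :=
  .of_cuspLike (cuspLike_zero h)

theorem PolyCuspLike.sum {h : ℝ} {ι : Type*} (s : Finset ι) {φ : ι → ℂ → ℂ}
    (hφ : ∀ i ∈ s, PolyCuspLike h (φ i)) : PolyCuspLike h (fun z => ∑ i ∈ s, φ i z) := by
  classical
  induction s using Finset.induction_on with
  | empty => simpa using polyCuspLike_zero h
  | insert a s ha ih =>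
    have h1 := hφ a (Finset.mem_insert_self a s)
    have h2 := ih fun i hi => hφ i (Finset.mem_insert_of_mem hi)
    exact (h1.add h2).congr fun z _ => by rw [Finset.sum_insert ha]

theorem PolyCuspLike.poly_mul {h : ℝ} {φ : ℂ → ℂ} (hφ : PolyCuspLike h φ) (P : Polynomial ℂ) :
    PolyCuspLike h (fun z => P.eval z * φ z) := by
  induction P using Polynomial.induction_on' with
  | add p q hp hq => exact (hp.add hq).congr fun z _ => by simp [add_mul]
  | monomial n a => exact ((hφ.pow_mul n).const_mul a).congr fun z _ => by simp [mul_assoc]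

/-- Elements of the class, multiplied by any power of `z`, tend to zero along vertical lines. -/
theorem PolyCuspLike.tendsto_pow_mul {h : ℝ} (hh : 0 < h) {φ : ℂ → ℂ} (hφ : PolyCuspLike h φ) :
    ∀ (j : ℕ) (x : ℝ),
      Tendsto (fun y : ℝ => ((x : ℂ) + y * I) ^ j * φ (x + y * I)) atTop (𝓝 0) := by
  induction hφ with
  | of_cuspLike hg => exact fun j x => hg.tendsto_pow_mul hh j x
  | add _ _ ih₁ ih₂ =>
    intro j x
    have := (ih₁ j x).add (ih₂ j x)
    simp only [add_zero] at this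
    exact this.congr fun y => by ring
  | id_mul _ ih =>
    intro j x
    exact (ih (j + 1) x).congr fun y => by ring
  | congr _ he ih =>
    intro j x
    refine (ih j x).congr' ?_
    filter_upwards [eventually_gt_atTop 0] with y hy
    rw [he _ (by simpa using hy)]

theorem PolyCuspLike.tendsto {h : ℝ} (hh : 0 < h) {φ : ℂ → ℂ} (hφ : PolyCuspLike h φ) (x : ℝ) :
    Tendsto (fun y : ℝ => φ (x + y * I)) atTop (𝓝 0) := by
  simpa using hφ.tendsto_pow_mul hh 0 x

/-- Monomial times `CuspLike` has a normalised primitive, which is in the class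
`PolyCuspLike`. -/
theorem CuspLike.exists_isNormPrim_pow {h : ℝ} (hh : 0 < h) (j : ℕ) :
    ∀ {g : ℂ → ℂ}, CuspLike h g →
      ∃ F : ℂ → ℂ, PolyCuspLike h F ∧ IsNormPrim (fun z => z ^ j * g z) F := by
  induction j with
  | zero =>
    intro g hg
    obtain ⟨F, hF, hder⟩ := hg.exists_primitive hh
    refine ⟨F, .of_cuspLike hF, fun z hz => by simpa using hder z hz, fun x => ?_⟩
    simpa using hF.tendsto_pow_mul hh 0 x
  | succ j ih =>
    intro g hg
    obtain ⟨F1, hF1, hder1⟩ := hg.exists_primitive hh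
    obtain ⟨F2, hF2c, hF2⟩ := ih hF1
    have hclass : PolyCuspLike h (fun z => z ^ (j + 1) * F1 z - ((j : ℂ) + 1) * F2 z) :=
      ((PolyCuspLike.of_cuspLike hF1).pow_mul (j + 1)).sub (hF2c.const_mul _)
    refine ⟨fun z => z ^ (j + 1) * F1 z - ((j : ℂ) + 1) * F2 z, hclass, fun z hz => ?_,
      fun x => hclass.tendsto hh x⟩
    have h1 : HasDerivAt (fun w : ℂ => w ^ (j + 1)) (((j + 1 : ℕ) : ℂ) * z ^ j) z := by
      simpa using hasDerivAt_pow (j + 1) z
    have h2 : HasDerivAt (fun w : ℂ => w ^ (j + 1) * F1 w - ((j : ℂ) + 1) * F2 w)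
        (((j + 1 : ℕ) : ℂ) * z ^ j * F1 z + z ^ (j + 1) * g z -
          ((j : ℂ) + 1) * (z ^ j * F1 z)) z :=
      (h1.mul (hder1 z hz)).sub ((hF2.1 z hz).const_mul ((j : ℂ) + 1))
    refine h2.congr_deriv ?_
    push_cast
    ring

/-- Polynomial times `CuspLike` has a normalised primitive in the class `PolyCuspLike`. -/
theorem CuspLike.exists_isNormPrim' {h : ℝ} (hh : 0 < h) {g : ℂ → ℂ} (hg : CuspLike h g)
    (P : Polynomial ℂ) :
    ∃ F : ℂ → ℂ, PolyCuspLike h F ∧ IsNormPrim (fun z => P.eval z * g z) F := by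
  induction P using Polynomial.induction_on' with
  | add p q hp hq =>
    obtain ⟨F, hFc, hF⟩ := hp
    obtain ⟨F', hFc', hF'⟩ := hq
    exact ⟨_, hFc.add hFc', (hF.add hF').congr fun z _ => by simp [add_mul]⟩
  | monomial n a =>
    obtain ⟨F, hFc, hF⟩ := hg.exists_isNormPrim_pow hh n
    exact ⟨_, hFc.const_mul a, (hF.const_mul a).congr fun z _ => by simp [mul_assoc]⟩

theorem CuspLike.exists_isNormPrim {h : ℝ} (hh : 0 < h) {g : ℂ → ℂ} (hg : CuspLike h g)
    (P : Polynomial ℂ) : ∃ F : ℂ → ℂ, IsNormPrim (fun z => P.eval z * g z) F := by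
  obtain ⟨F, -, hF⟩ := hg.exists_isNormPrim' hh P
  exact ⟨F, hF⟩

/-- The normalised primitive of `P * g` (junk value `0` if there is none). -/
def prim (g : ℂ → ℂ) (P : Polynomial ℂ) : ℂ → ℂ :=
  open Classical in
  if hex : ∃ F : ℂ → ℂ, IsNormPrim (fun z => P.eval z * g z) F then hex.choose else 0

theorem prim_spec {h : ℝ} (hh : 0 < h) {g : ℂ → ℂ} (hg : CuspLike h g) (P : Polynomial ℂ) :
    IsNormPrim (fun z => P.eval z * g z) (prim g P) := by
  have hex := hg.exists_isNormPrim hh P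
  rw [prim, dif_pos hex]
  exact hex.choose_spec

theorem prim_eq_of_isNormPrim {h : ℝ} (hh : 0 < h) {g : ℂ → ℂ} (hg : CuspLike h g)
    (P : Polynomial ℂ) {F : ℂ → ℂ} (hF : IsNormPrim (fun z => P.eval z * g z) F)
    {z : ℂ} (hz : 0 < z.im) : prim g P z = F z :=
  (prim_spec hh hg P).unique hF z hz

section linearity

variable {h : ℝ} (hh : 0 < h) {g g₁ g₂ : ℂ → ℂ}
include hh

theorem prim_add_poly (hg : CuspLike h g) (P Q : Polynomial ℂ) {z : ℂ} (hz : 0 < z.im) :
    prim g (P + Q) z = prim g P z + prim g Q z :=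
  prim_eq_of_isNormPrim hh hg _
    (((prim_spec hh hg P).add (prim_spec hh hg Q)).congr fun z _ => by simp [add_mul]) hz

theorem prim_smul_poly (hg : CuspLike h g) (c : ℂ) (P : Polynomial ℂ) {z : ℂ} (hz : 0 < z.im) :
    prim g (c • P) z = c * prim g P z :=
  prim_eq_of_isNormPrim hh hg _
    (((prim_spec hh hg P).const_mul c).congr fun z _ => by simp [mul_assoc]) hz

theorem prim_C_mul_poly (hg : CuspLike h g) (c : ℂ) (P : Polynomial ℂ) {z : ℂ} (hz : 0 < z.im) :
    prim g (Polynomial.C c * P) z = c * prim g P z :=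
  prim_eq_of_isNormPrim hh hg _
    (((prim_spec hh hg P).const_mul c).congr fun z _ => by simp [mul_assoc]) hz

theorem prim_neg_poly (hg : CuspLike h g) (P : Polynomial ℂ) {z : ℂ} (hz : 0 < z.im) :
    prim g (-P) z = -prim g P z := by
  have := prim_smul_poly hh hg (-1) P hz
  simpa using this

theorem prim_sub_poly (hg : CuspLike h g) (P Q : Polynomial ℂ) {z : ℂ} (hz : 0 < z.im) :
    prim g (P - Q) z = prim g P z - prim g Q z := by
  rw [sub_eq_add_neg, prim_add_poly hh hg _ _ hz, prim_neg_poly hh hg _ hz, ← sub_eq_add_neg]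

theorem prim_zero_poly (hg : CuspLike h g) {z : ℂ} (hz : 0 < z.im) : prim g 0 z = 0 :=
  prim_eq_of_isNormPrim hh hg _ (isNormPrim_zero.congr fun z _ => by simp) hz

theorem prim_add_fun (h₁ : CuspLike h g₁) (h₂ : CuspLike h g₂) (P : Polynomial ℂ) {z : ℂ}
    (hz : 0 < z.im) : prim (fun w => g₁ w + g₂ w) P z = prim g₁ P z + prim g₂ P z :=
  prim_eq_of_isNormPrim hh (h₁.add h₂) _
    (((prim_spec hh h₁ P).add (prim_spec hh h₂ P)).congr fun z _ => by ring) hz

theorem prim_smul_fun (hg : CuspLike h g) (c : ℂ) (P : Polynomial ℂ) {z : ℂ} (hz : 0 < z.im) :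
    prim (fun w => c * g w) P z = c * prim g P z :=
  prim_eq_of_isNormPrim hh (hg.const_mul c) _
    (((prim_spec hh hg P).const_mul c).congr fun z _ => by ring) hz

theorem prim_congr_fun (hg : CuspLike h g) {g' : ℂ → ℂ}
    (he : ∀ z : ℂ, 0 < z.im → g' z = g z) (P : Polynomial ℂ) {z : ℂ} (hz : 0 < z.im) :
    prim g' P z = prim g P z :=
  prim_eq_of_isNormPrim hh (hg.congr he) _
    ((prim_spec hh hg P).congr fun z hz => by rw [he z hz]) hz

end linearity

section mobius

/-- Real Möbius transformations of determinant one: derivative and preservation of the upper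
half plane. -/
theorem mobius_den_ne_zero (c d : ℝ) (hcd : c ≠ 0 ∨ d ≠ 0) {z : ℂ} (hz : 0 < z.im) :
    (c : ℂ) * z + d ≠ 0 := by
  intro h0
  have him : ((c : ℂ) * z + d).im = c * z.im := by simp
  have hre : ((c : ℂ) * z + d).re = c * z.re + d := by simp
  rw [h0] at him hre
  simp only [Complex.zero_im, Complex.zero_re] at him hre
  have hc : c = 0 := by
    rcases mul_eq_zero.mp him.symm with h | h
    · exact h
    · exact absurd h hz.ne'
  rcases hcd with h | h
  · exact h hc
  · apply h; rw [hc] at hre; linarith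

theorem mobius_im (a b c d : ℝ) (hdet : a * d - b * c = 1) (z : ℂ) :
    (((a : ℂ) * z + b) / ((c : ℂ) * z + d)).im = z.im / Complex.normSq ((c : ℂ) * z + d) := by
  rw [Complex.div_im]
  have h1 : ((a : ℂ) * z + b).im = a * z.im := by simp
  have h2 : ((a : ℂ) * z + b).re = a * z.re + b := by simp
  have h3 : ((c : ℂ) * z + d).im = c * z.im := by simp
  have h4 : ((c : ℂ) * z + d).re = c * z.re + d := by simp
  rw [h1, h2, h3, h4, ← sub_div]
  congr 1
  have : a * z.im * (c * z.re + d) - (a * z.re + b) * (c * z.im) = (a * d - b * c) * z.im := by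
    ring
  rw [this, hdet, one_mul]

theorem mobius_im_pos (a b c d : ℝ) (hdet : a * d - b * c = 1) {z : ℂ} (hz : 0 < z.im) :
    0 < (((a : ℂ) * z + b) / ((c : ℂ) * z + d)).im := by
  rw [mobius_im a b c d hdet z]
  have hcd : c ≠ 0 ∨ d ≠ 0 := by
    by_contra hcon
    rw [not_or, not_not, not_not] at hcon
    rw [hcon.1, hcon.2] at hdet
    norm_num at hdet
  have hne := mobius_den_ne_zero c d hcd hz
  exact div_pos hz (Complex.normSq_pos.mpr hne)

theorem mobius_hasDerivAt (a b c d : ℝ) (hdet : a * d - b * c = 1) {z : ℂ} (hz : 0 < z.im) :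
    HasDerivAt (fun w : ℂ => ((a : ℂ) * w + b) / ((c : ℂ) * w + d))
      ((((c : ℂ) * z + d) ^ 2)⁻¹) z := by
  have hcd : c ≠ 0 ∨ d ≠ 0 := by
    by_contra hcon
    rw [not_or, not_not, not_not] at hcon
    rw [hcon.1, hcon.2] at hdet
    norm_num at hdet
  have hne := mobius_den_ne_zero c d hcd hz
  have h1 : HasDerivAt (fun w : ℂ => (a : ℂ) * w + b) (a : ℂ) z := by
    simpa using ((hasDerivAt_id z).const_mul (a : ℂ)).add_const (b : ℂ)
  have h2 : HasDerivAt (fun w : ℂ => (c : ℂ) * w + d) (c : ℂ) z := by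
    simpa using ((hasDerivAt_id z).const_mul (c : ℂ)).add_const (d : ℂ)
  have h3 := h1.div h2 hne
  refine h3.congr_deriv ?_
  have hdet' : (a : ℂ) * d - b * c = 1 := by exact_mod_cast hdet
  field_simp
  linear_combination hdet'

/-- Under a real Möbius substitution of determinant one, normalised primitives are
equivariant up to an additive constant. -/
theorem prim_mobius_sub_const {h h' : ℝ} (hh : 0 < h) (hh' : 0 < h') {g g' : ℂ → ℂ}
    (hg : CuspLike h g) (hg' : CuspLike h' g') (P Q : Polynomial ℂ) (a b c d : ℝ)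
    (hdet : a * d - b * c = 1)
    (hPQ : ∀ z : ℂ, 0 < z.im → Q.eval z * g' z =
      P.eval (((a : ℂ) * z + b) / ((c : ℂ) * z + d)) *
        g (((a : ℂ) * z + b) / ((c : ℂ) * z + d)) * ((((c : ℂ) * z + d) ^ 2)⁻¹)) :
    ∃ C : ℂ, ∀ z : ℂ, 0 < z.im →
      prim g P (((a : ℂ) * z + b) / ((c : ℂ) * z + d)) - prim g' Q z = C := by
  refine exists_const_of_hasDerivAt (φ := fun z => Q.eval z * g' z) (fun z hz => ?_)
    (prim_spec hh' hg' Q).1
  have h1 := (prim_spec hh hg P).1 _ (mobius_im_pos a b c d hdet hz)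
  have h2 := h1.comp z (mobius_hasDerivAt a b c d hdet hz)
  rw [hPQ z hz]
  exact h2

/-- Under an affine substitution `z ↦ α z + β` (`α > 0`, `β` real), which fixes the cusp `i∞`,
normalised primitives are equivariant on the nose. -/
theorem prim_affine {h h' : ℝ} (hh : 0 < h) (hh' : 0 < h') {g g' : ℂ → ℂ}
    (hg : CuspLike h g) (hg' : CuspLike h' g') (P Q : Polynomial ℂ) (α β : ℝ) (hα : 0 < α)
    (hPQ : ∀ z : ℂ, 0 < z.im → Q.eval z * g' z =
      α * (P.eval ((α : ℂ) * z + β) * g ((α : ℂ) * z + β)))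
    {z : ℂ} (hz : 0 < z.im) : prim g' Q z = prim g P ((α : ℂ) * z + β) := by
  have him : ∀ w : ℂ, ((α : ℂ) * w + β).im = α * w.im := fun w => by simp
  refine prim_eq_of_isNormPrim hh' hg' Q (F := fun w => prim g P ((α : ℂ) * w + β))
    ⟨fun w hw => ?_, fun x => ?_⟩ hz
  · have hw' : 0 < ((α : ℂ) * w + β).im := by rw [him]; exact mul_pos hα hw
    have h1 := (prim_spec hh hg P).1 _ hw'
    have h2 : HasDerivAt (fun u : ℂ => (α : ℂ) * u + β) (α : ℂ) w := by
      simpa using ((hasDerivAt_id w).const_mul (α : ℂ)).add_const (β : ℂ)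
    have h3 := h1.comp w h2
    refine h3.congr_deriv ?_
    simp only [hPQ w hw]
    ring
  · have h1 := (prim_spec hh hg P).2 (α * x + β)
    have h2 : Tendsto (fun y : ℝ => α * y) atTop atTop :=
      tendsto_id.const_mul_atTop hα
    have h3 := h1.comp h2
    refine h3.congr fun y => ?_
    simp only [Function.comp_apply]
    congr 1
    push_cast
    ring

end mobius

section eichler

open Polynomial

variable {h : ℝ} (hh : 0 < h) {g : ℂ → ℂ}
include hh

theorem prim_polyCuspLike (hg : CuspLike h g) (P : Polynomial ℂ) :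
    PolyCuspLike h (prim g P) := by
  obtain ⟨F, hFc, hF⟩ := hg.exists_isNormPrim' hh P
  exact hFc.congr fun z hz => prim_eq_of_isNormPrim hh hg P hF hz

/-- `prim g 1` is a cusp-like primitive of `g`. -/
theorem exists_cuspLike_eq_prim_one (hg : CuspLike h g) :
    ∃ F : ℂ → ℂ, CuspLike h F ∧ (∀ z : ℂ, 0 < z.im → HasDerivAt F (g z) z) ∧
      ∀ z : ℂ, 0 < z.im → prim g 1 z = F z := by
  obtain ⟨F, hF, hder⟩ := hg.exists_primitive hh
  refine ⟨F, hF, hder, fun z hz => ?_⟩
  refine prim_eq_of_isNormPrim hh hg 1 ⟨fun w hw => by simpa using hder w hw, fun x => ?_⟩ hz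
  simpa using hF.tendsto_pow_mul hh 0 x

omit hh in
/-- The Eichler integral `∫_{i∞}^z (w - z)^m g(w) dw`, expanded binomially in terms of the
normalised primitives of `w^j g(w)`. -/
def eichler (m : ℕ) (g : ℂ → ℂ) (z : ℂ) : ℂ :=
  ∑ j ∈ Finset.range (m + 1), (m.choose j : ℂ) * (-z) ^ (m - j) * prim g (X ^ j) z

theorem eichler_polyCuspLike (hg : CuspLike h g) (m : ℕ) : PolyCuspLike h (eichler m g) := by
  unfold eichler
  refine PolyCuspLike.sum _ fun j _ => ?_
  have h1 := ((prim_polyCuspLike hh hg (X ^ j)).pow_mul (m - j)).const_mul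
    ((m.choose j : ℂ) * (-1) ^ (m - j))
  refine h1.congr fun z _ => ?_
  rw [neg_pow z]
  ring

omit hh in
theorem eichler_zero_eq (g : ℂ → ℂ) (z : ℂ) : eichler 0 g z = prim g 1 z := by
  simp [eichler]

theorem eichler_zero_hasDerivAt (hg : CuspLike h g) {z : ℂ} (hz : 0 < z.im) :
    HasDerivAt (eichler 0 g) (g z) z := by
  have h1 : eichler 0 g = prim g 1 := by
    funext w; simp [eichler]
  rw [h1]
  simpa using (prim_spec hh hg 1).1 z hz

/-- The derivative of the Eichler integral of exponent `m + 1` is `-(m + 1)` times the one of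
exponent `m`. -/
theorem eichler_succ_hasDerivAt (hg : CuspLike h g) (m : ℕ) {z : ℂ} (hz : 0 < z.im) :
    HasDerivAt (eichler (m + 1) g) (-((m : ℂ) + 1) * eichler m g z) z := by
  -- termwise derivative
  have hterm : ∀ j ∈ Finset.range (m + 2),
      HasDerivAt (fun w : ℂ => ((m + 1).choose j : ℂ) * (-w) ^ (m + 1 - j) * prim g (X ^ j) w)
        (((m + 1).choose j : ℂ) * (-(((m + 1 - j : ℕ) : ℂ)) * (-z) ^ (m - j)) * prim g (X ^ j) z +
          ((m + 1).choose j : ℂ) * (-z) ^ (m + 1 - j) * (z ^ j * g z)) z := by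
    intro j _
    have h1 : HasDerivAt (fun w : ℂ => (-w) ^ (m + 1 - j))
        (-(((m + 1 - j : ℕ) : ℂ)) * (-z) ^ (m - j)) z := by
      have h2 := (hasDerivAt_neg z).pow (m + 1 - j)
      refine h2.congr_deriv ?_
      have : m + 1 - j - 1 = m - j := by omega
      rw [this]
      ring
    have h3 := (prim_spec hh hg (X ^ j)).1 z hz
    simp only [eval_pow, eval_X] at h3
    have h4 := (h1.const_mul ((m + 1).choose j : ℂ)).mul h3
    refine h4.congr_deriv ?_
    ring
  have hsum := HasDerivAt.fun_sum hterm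
  have hfun : (fun w : ℂ => ∑ j ∈ Finset.range (m + 2),
      ((m + 1).choose j : ℂ) * (-w) ^ (m + 1 - j) * prim g (X ^ j) w) = eichler (m + 1) g := by
    funext w; rfl
  rw [hfun] at hsum
  refine hsum.congr_deriv ?_
  rw [Finset.sum_add_distrib]
  -- second sum vanishes by the binomial theorem
  have hsecond : ∑ j ∈ Finset.range (m + 2),
      ((m + 1).choose j : ℂ) * (-z) ^ (m + 1 - j) * (z ^ j * g z) = 0 := by
    have hb := add_pow z (-z) (m + 1)
    rw [add_neg_cancel, zero_pow (Nat.succ_ne_zero m)] at hb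
    calc ∑ j ∈ Finset.range (m + 2),
          ((m + 1).choose j : ℂ) * (-z) ^ (m + 1 - j) * (z ^ j * g z)
        = (∑ j ∈ Finset.range (m + 1 + 1), z ^ j * (-z) ^ (m + 1 - j) * ((m + 1).choose j : ℂ))
            * g z := by
          rw [Finset.sum_mul]
          exact Finset.sum_congr rfl fun j _ => by ring
      _ = 0 := by rw [← hb, zero_mul]
  rw [hsecond, add_zero, Finset.sum_range_succ]
  have hlast : ((m + 1).choose (m + 1) : ℂ) * (-(((m + 1 - (m + 1) : ℕ) : ℂ)) *
      (-z) ^ (m - (m + 1))) * prim g (X ^ (m + 1)) z = 0 := by simp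
  rw [hlast, add_zero]
  unfold eichler
  rw [Finset.mul_sum]
  refine Finset.sum_congr rfl fun j hj => ?_
  have hj' : j ≤ m := Nat.lt_succ_iff.mp (Finset.mem_range.mp hj)
  have hch : ((m + 1).choose j : ℂ) * ((m + 1 - j : ℕ) : ℂ) = (m.choose j : ℂ) * ((m : ℂ) + 1) := by
    have := Nat.choose_mul_succ_eq m j
    have h2 : ((m.choose j * (m + 1) : ℕ) : ℂ) = (((m + 1).choose j * (m + 1 - j) : ℕ) : ℂ) := by
      rw [this]
    push_cast at h2
    rw [← h2]
  calc ((m + 1).choose j : ℂ) * (-(((m + 1 - j : ℕ) : ℂ)) * (-z) ^ (m - j)) * prim g (X ^ j) z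
      = -(((m + 1).choose j : ℂ) * ((m + 1 - j : ℕ) : ℂ)) * (-z) ^ (m - j) * prim g (X ^ j) z := by
        ring
    _ = -((m : ℂ) + 1) * ((m.choose j : ℂ) * (-z) ^ (m - j) * prim g (X ^ j) z) := by
        rw [hch]; ring

/-- The Eichler integral agrees on the upper half plane with a cusp-like function: the
polynomial factors cancel. -/
theorem eichler_cuspLike (hg : CuspLike h g) (m : ℕ) :
    ∃ E : ℂ → ℂ, CuspLike h E ∧ ∀ z : ℂ, 0 < z.im → eichler m g z = E z := by
  induction m with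
  | zero =>
    obtain ⟨F, hF, -, hFe⟩ := exists_cuspLike_eq_prim_one hh hg
    exact ⟨F, hF, fun z hz => by rw [eichler_zero_eq, hFe z hz]⟩
  | succ m ih =>
    obtain ⟨E, hE, hEe⟩ := ih
    obtain ⟨E', hE', hder⟩ := (hE.const_mul (-((m : ℂ) + 1))).exists_primitive hh
    refine ⟨E', hE', ?_⟩
    have h1 : IsNormPrim (fun z => -((m : ℂ) + 1) * E z) (eichler (m + 1) g) :=
      ⟨fun z hz => by
        show HasDerivAt (eichler (m + 1) g) (-((m : ℂ) + 1) * E z) z
        rw [← hEe z hz]; exact eichler_succ_hasDerivAt hh hg m hz,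
        fun x => (eichler_polyCuspLike hh hg (m + 1)).tendsto hh x⟩
    have h2 : IsNormPrim (fun z => -((m : ℂ) + 1) * E z) E' :=
      ⟨hder, fun x => by simpa using hE'.tendsto_pow_mul hh 0 x⟩
    exact h1.unique h2

/-- If the Eichler integral is constant on the upper half plane then `g` vanishes there. -/
theorem eq_zero_of_eichler_eq_const (hg : CuspLike h g) (m : ℕ) (c : ℂ)
    (h0 : ∀ z : ℂ, 0 < z.im → eichler m g z = c) : ∀ z : ℂ, 0 < z.im → g z = 0 := by
  -- first, the constant is zero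
  have hc : c = 0 := by
    have h1 := (eichler_polyCuspLike hh hg m).tendsto hh 0
    have h2 : Tendsto (fun y : ℝ => eichler m g ((0 : ℝ) + y * I)) atTop (𝓝 c) := by
      refine tendsto_const_nhds.congr' ?_
      filter_upwards [eventually_gt_atTop 0] with y hy
      exact (h0 _ (by simpa using hy)).symm
    exact tendsto_nhds_unique h2 h1
  subst hc
  induction m with
  | zero =>
    intro z hz
    have h1 := eichler_zero_hasDerivAt hh hg hz
    have h2 : HasDerivAt (eichler 0 g) 0 z := by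
      refine (hasDerivAt_const z (0 : ℂ)).congr_of_eventuallyEq ?_
      filter_upwards [isOpen_U.mem_nhds (show z ∈ U from hz)] with w hw
      exact h0 w hw
    exact h1.unique h2
  | succ m ih =>
    refine ih fun z hz => ?_
    have h1 := eichler_succ_hasDerivAt hh hg m hz
    have h2 : HasDerivAt (eichler (m + 1) g) 0 z := by
      refine (hasDerivAt_const z (0 : ℂ)).congr_of_eventuallyEq ?_
      filter_upwards [isOpen_U.mem_nhds (show z ∈ U from hz)] with w hw
      exact h0 w hw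
    have h3 := h1.unique h2
    have hne : -((m : ℂ) + 1) ≠ 0 := by
      rw [neg_ne_zero]
      exact_mod_cast Nat.succ_ne_zero m
    exact (mul_eq_zero.mp h3).resolve_left hne

/-- The Eichler integral is the normalised primitive with polynomial weight `(X - z)^m`,
evaluated at `z`. -/
theorem eichler_eq_prim (hg : CuspLike h g) (m : ℕ) {z : ℂ} (hz : 0 < z.im) :
    eichler m g z = prim g ((X - C z) ^ m) z := by
  have hexp : ((X - C z) ^ m : Polynomial ℂ) =
      ∑ j ∈ Finset.range (m + 1), C ((m.choose j : ℂ) * (-z) ^ (m - j)) * X ^ j := by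
    rw [sub_eq_add_neg, add_pow]
    refine Finset.sum_congr rfl fun j _ => ?_
    rw [← C_neg, ← C_pow, C_mul, ← C_eq_natCast]
    ring
  rw [hexp]
  -- linearity over the finite sum
  have hsum : ∀ (s : Finset ℕ) (c : ℕ → ℂ),
      prim g (∑ j ∈ s, C (c j) * X ^ j) z = ∑ j ∈ s, c j * prim g (X ^ j) z := by
    intro s c
    classical
    induction s using Finset.induction_on with
    | empty => simpa using prim_zero_poly hh hg hz
    | insert a s ha ih =>
      rw [Finset.sum_insert ha, Finset.sum_insert ha, prim_add_poly hh hg _ _ hz, ih,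
        prim_C_mul_poly hh hg _ _ hz]
  rw [hsum]
  rfl

end eichler

end Fermat.Agent.S22.Primitive
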