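import Mathlib

set_option autoImplicit false

namespace Fermat.Agent.S22.Abstract

/-- Abstract finiteness criterion: if a finitely generated additive subgroup `Λ` of the dual of
`V` is stable under precomposition with every element of `G` and separates the points of `V`,
then the `ℤ`-subalgebra of `End V` generated by `G` is a finitely generated `ℤ`-module. -/
theorem finite_adjoin_of_stable_lattice {V : Type*} [AddCommGroup V] [Module ℂ V]
    (G : Set (Module.End ℂ V)) (Λ : Submodule ℤ (Module.Dual ℂ V)) (hfg : Λ.FG)
    (hstable : ∀ g ∈ G, ∀ φ ∈ Λ, φ ∘ₗ g ∈ Λ)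
    (hsep : ∀ f : V, (∀ φ ∈ Λ, φ f = 0) → f = 0) :
    Module.Finite ℤ (Algebra.adjoin ℤ G) := by
  classical
  have hfin : Module.Finite ℤ Λ := Module.Finite.iff_fg.mpr hfg
  -- every element of the adjoin preserves `Λ`
  have hpres : ∀ t ∈ Algebra.adjoin ℤ G, ∀ φ ∈ Λ, φ ∘ₗ t ∈ Λ := by
    intro t ht
    induction ht using Algebra.adjoin_induction with
    | mem x hx => exact hstable x hx
    | algebraMap r =>
      intro φ hφ
      have : φ ∘ₗ (algebraMap ℤ (Module.End ℂ V) r) = r • φ := by
        ext v
        simp
      rw [this]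
      exact Λ.smul_mem r hφ
    | add x y _ _ hx hy =>
      intro φ hφ
      rw [LinearMap.comp_add]
      exact Λ.add_mem (hx φ hφ) (hy φ hφ)
    | mul x y _ _ hx hy =>
      intro φ hφ
      have : φ ∘ₗ (x * y) = (φ ∘ₗ x) ∘ₗ y := by
        ext v
        simp
      rw [this]
      exact hy _ (hx φ hφ)
  -- the action map
  let Ψ : (Algebra.adjoin ℤ G) →ₗ[ℤ] (Λ →ₗ[ℤ] Λ) :=
    { toFun := fun t =>
        { toFun := fun φ => ⟨(φ : Module.Dual ℂ V) ∘ₗ (t : Module.End ℂ V),
            hpres t.1 t.2 φ.1 φ.2⟩
          map_add' := fun φ ψ => by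
            apply Subtype.ext
            simp [LinearMap.add_comp]
          map_smul' := fun r φ => by
            apply Subtype.ext
            simp [LinearMap.smul_comp] }
      map_add' := fun s t => by
        ext φ v
        simp
      map_smul' := fun r s => by
        ext φ v
        simp }
  have hinj : Function.Injective Ψ := by
    rw [injective_iff_map_eq_zero]
    intro t ht
    apply Subtype.ext
    apply LinearMap.ext
    intro v
    apply hsep
    intro φ hφ
    have h1 := congrArg (fun F : Λ →ₗ[ℤ] Λ => ((F ⟨φ, hφ⟩ : Λ) : Module.Dual ℂ V) v) ht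
    simpa [Ψ] using h1
  exact Module.Finite.of_injective Ψ hinj

end Fermat.Agent.S22.Abstract
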