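import Mathlib
import Fermat.Prelude.Def_CuspForm_HeckeAlgebra

/-!
# S22: the trivial weights `k ≤ 1`

For `k ≤ 1` there are no nonzero cusp forms on `Γ₀(N)`, so the Hecke algebra is a subsingleton.
-/

set_option autoImplicit false

noncomputable section

namespace Fermat.Agent.S22.LowWeight

open UpperHalfPlane CongruenceSubgroup Matrix.SpecialLinearGroup
open scoped MatrixGroups ModularForm

variable {N : ℕ} [NeZero N] {k : ℤ}

theorem neg_one_mem_Gamma0 (N : ℕ) :
    (-1 : GL (Fin 2) ℝ) ∈ (Gamma0 N : Subgroup (GL (Fin 2) ℝ)) := by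
  refine ⟨-1, ?_, ?_⟩
  · show (-1 : SL(2, ℤ)) ∈ Gamma0 N
    rw [Gamma0_mem]
    simp
  · ext i j
    fin_cases i <;> fin_cases j <;> simp

/-- There are no nonzero cusp forms of weight `≤ 1` on `Γ₀(N)`. -/
theorem cuspForm_eq_zero_of_le_one (hk : k ≤ 1) (f : CuspForm (Gamma0 N) k) : f = 0 := by
  apply CuspForm.toModularFormₗ_injective
  rw [map_zero]
  rcases lt_trichotomy k 0 with hneg | rfl | hpos
  · exact ModularForm.isZero_of_neg_weight hneg _
  · obtain ⟨c, hc⟩ := ModularForm.eq_const_of_weight_zero (CuspForm.toModularFormₗ f)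
    have hzero : IsZeroAtImInfty (f : ℍ → ℂ) := CuspFormClass.zero_at_infty f
    have hfc : (f : ℍ → ℂ) = Function.const ℍ c := by
      funext z
      have := congrFun hc z
      simpa using this
    have hc0 : c = 0 := by
      rw [hfc] at hzero
      have h2 : Filter.Tendsto (Function.const ℍ c) atImInfty (nhds c) := tendsto_const_nhds
      exact tendsto_nhds_unique h2 hzero
    ext z
    have := congrFun hc z
    rw [hc0] at this
    simpa using this
  · have hk1 : k = 1 := le_antisymm hk hpos
    subst hk1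
    exact ModularForm.eq_zero_of_neg_one_mem (neg_one_mem_Gamma0 N) odd_one _

theorem subsingleton_cuspForm (hk : k ≤ 1) : Subsingleton (CuspForm (Gamma0 N) k) :=
  ⟨fun f g => by rw [cuspForm_eq_zero_of_le_one hk f, cuspForm_eq_zero_of_le_one hk g]⟩

/-- For `k ≤ 1` the Hecke algebra is trivially a finite `ℤ`-module. -/
theorem finite_heckeAlgebra_of_le_one (hk : k ≤ 1) (S : Set ℕ) :
    Module.Finite ℤ (CuspForm.heckeAlgebra N k S) := by
  have := subsingleton_cuspForm (N := N) hk
  have : Subsingleton (Module.End ℂ (CuspForm (Gamma0 N) k)) :=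
    ⟨fun a b => LinearMap.ext fun x => Subsingleton.elim _ _⟩
  have : Subsingleton (CuspForm.heckeAlgebra N k S) :=
    ⟨fun a b => Subtype.ext (Subsingleton.elim _ _)⟩
  exact Module.Finite.of_finite

end Fermat.Agent.S22.LowWeight
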