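import Fermat.Agent.S22.Defs
import Fermat.Agent.S22.Primitive
import Fermat.Prelude.Thm_CongruenceSubgroup_one_mem_strictPeriods_Gamma0

/-!
# S22: Eichler integrals, period functionals, the period lattice
-/

set_option autoImplicit false

noncomputable section

namespace Fermat.Agent.S22.Period

open UpperHalfPlane Polynomial CongruenceSubgroup Filter
open Fermat.Agent.S22.Primitive
open scoped MatrixGroups ModularForm

variable {N : ℕ} {k : ℤ}

/-- The function on `ℂ` attached to a cusp form. -/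
def ext (f : CuspForm (Gamma0 N) k) : ℂ → ℂ := ⇑f ∘ ofComplex

theorem ext_coe (f : CuspForm (Gamma0 N) k) (τ : ℍ) : ext f (τ : ℂ) = f τ := by
  simp [ext]

theorem cuspLike_ext (f : CuspForm (Gamma0 N) k) : CuspLike 1 (ext f) :=
  cuspLike_of_cuspFormClass f one_pos (one_mem_strictPeriods_Gamma0 N)

/-- Integer polynomial as a complex polynomial. -/
def toC (P : ℤ[X]) : ℂ[X] := P.map (Int.castRingHom ℂ)

theorem eval_toC (P : ℤ[X]) (z : ℂ) : (toC P).eval z = aeval z P := by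
  rw [toC, eval_map, aeval_def]
  rfl

theorem toC_add (P Q : ℤ[X]) : toC (P + Q) = toC P + toC Q := Polynomial.map_add _

theorem toC_zsmul (m : ℤ) (P : ℤ[X]) : toC (m • P) = (m : ℂ) • toC P := by
  rw [toC, toC, zsmul_eq_mul, Polynomial.map_mul, Polynomial.map_intCast, Int.cast_smul_eq_zsmul ℂ,
    zsmul_eq_mul]

/-- The Eichler integral of `P * f`, normalised at the cusp `i∞`. -/
def eich (f : CuspForm (Gamma0 N) k) (P : ℤ[X]) : ℂ → ℂ := prim (ext f) (toC P)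

theorem eich_spec (f : CuspForm (Gamma0 N) k) (P : ℤ[X]) :
    IsNormPrim (fun z => aeval z P * ext f z) (eich f P) :=
  (prim_spec one_pos (cuspLike_ext f) (toC P)).congr fun z _ => by rw [eval_toC]

theorem eich_eq_of_isNormPrim (f : CuspForm (Gamma0 N) k) (P : ℤ[X]) {F : ℂ → ℂ}
    (hF : IsNormPrim (fun z => aeval z P * ext f z) F) {z : ℂ} (hz : 0 < z.im) :
    eich f P z = F z :=
  (eich_spec f P).unique hF z hz

theorem eich_add_poly (f : CuspForm (Gamma0 N) k) (P Q : ℤ[X]) {z : ℂ} (hz : 0 < z.im) :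
    eich f (P + Q) z = eich f P z + eich f Q z := by
  rw [eich, toC_add]
  exact prim_add_poly one_pos (cuspLike_ext f) _ _ hz

theorem eich_zsmul_poly (f : CuspForm (Gamma0 N) k) (m : ℤ) (P : ℤ[X]) {z : ℂ} (hz : 0 < z.im) :
    eich f (m • P) z = m * eich f P z := by
  rw [eich, toC_zsmul]
  exact prim_smul_poly one_pos (cuspLike_ext f) _ _ hz

theorem eich_zero_poly (f : CuspForm (Gamma0 N) k) {z : ℂ} (hz : 0 < z.im) :
    eich f 0 z = 0 := by
  have := eich_zsmul_poly f 0 0 hz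
  simpa using this

theorem eich_add_fun (f g : CuspForm (Gamma0 N) k) (P : ℤ[X]) {z : ℂ} (hz : 0 < z.im) :
    eich (f + g) P z = eich f P z + eich g P z := by
  have h : ext (f + g) = fun w => ext f w + ext g w := by
    funext w
    simp [ext]
  rw [eich, h]
  exact prim_add_fun one_pos (cuspLike_ext f) (cuspLike_ext g) _ hz

theorem eich_smul_fun (c : ℂ) (f : CuspForm (Gamma0 N) k) (P : ℤ[X]) {z : ℂ} (hz : 0 < z.im) :
    eich (c • f) P z = c * eich f P z := by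
  have h : ext (c • f) = fun w => c * ext f w := by
    funext w
    simp [ext]
  rw [eich, h]
  exact prim_smul_fun one_pos (cuspLike_ext f) c _ hz


/-- Möbius transformation on `ℂ`. -/
def mob (γ : SL(2, ℤ)) (z : ℂ) : ℂ :=
  ((γ 0 0 : ℂ) * z + (γ 0 1 : ℂ)) / ((γ 1 0 : ℂ) * z + (γ 1 1 : ℂ))

theorem coe_smul_eq_mob (γ : SL(2, ℤ)) (τ : ℍ) : ((γ • τ : ℍ) : ℂ) = mob γ τ := by
  rw [coe_specialLinearGroup_apply]
  simp [mob]

theorem den_ne_zero (γ : SL(2, ℤ)) {z : ℂ} (hz : 0 < z.im) :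
    (γ 1 0 : ℂ) * z + (γ 1 1 : ℂ) ≠ 0 := by
  have := UpperHalfPlane.denom_ne_zero (γ : GL (Fin 2) ℝ) ⟨z, hz⟩
  simpa [UpperHalfPlane.denom] using this

theorem det_eq_one_complex (γ : SL(2, ℤ)) :
    (γ 0 0 : ℂ) * (γ 1 1 : ℂ) - (γ 0 1 : ℂ) * (γ 1 0 : ℂ) = 1 := by
  have h := γ.det_coe
  rw [Matrix.det_fin_two] at h
  exact_mod_cast h

theorem hasDerivAt_mob (γ : SL(2, ℤ)) {z : ℂ} (hz : 0 < z.im) :
    HasDerivAt (mob γ) ((((γ 1 0 : ℂ) * z + (γ 1 1 : ℂ)) ^ 2)⁻¹) z := by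
  have hden := den_ne_zero γ hz
  have h1 : HasDerivAt (fun w : ℂ => (γ 0 0 : ℂ) * w + (γ 0 1 : ℂ)) (γ 0 0 : ℂ) z := by
    simpa using ((hasDerivAt_id z).const_mul (γ 0 0 : ℂ)).add_const (γ 0 1 : ℂ)
  have h2 : HasDerivAt (fun w : ℂ => (γ 1 0 : ℂ) * w + (γ 1 1 : ℂ)) (γ 1 0 : ℂ) z := by
    simpa using ((hasDerivAt_id z).const_mul (γ 1 0 : ℂ)).add_const (γ 1 1 : ℂ)
  have h3 := h1.div h2 hden
  refine h3.congr_deriv ?_
  have hdet := det_eq_one_complex γ
  rw [div_eq_iff (pow_ne_zero 2 hden), inv_mul_cancel₀ (pow_ne_zero 2 hden)]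
  linear_combination hdet

theorem mob_im_pos (γ : SL(2, ℤ)) {z : ℂ} (hz : 0 < z.im) : 0 < (mob γ z).im := by
  have := (γ • (⟨z, hz⟩ : ℍ)).im_pos
  rw [← UpperHalfPlane.coe_im, coe_smul_eq_mob] at this
  exact this

theorem ext_mob (f : CuspForm (Gamma0 N) k) {γ : SL(2, ℤ)} (hγ : γ ∈ Gamma0 N) {z : ℂ}
    (hz : 0 < z.im) :
    ext f (mob γ z) = ((γ 1 0 : ℂ) * z + (γ 1 1 : ℂ)) ^ k * ext f z := by
  have h1 := SlashInvariantForm.slash_action_eqn_SL'' f hγ ⟨z, hz⟩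
  rw [← ext_coe, coe_smul_eq_mob, ← ext_coe] at h1
  rw [h1]
  rfl

/-- The period of `f` along `γ` with polynomial weight `P`. -/
def per (n : ℕ) (γ : SL(2, ℤ)) (P : ℤ[X]) (f : CuspForm (Gamma0 N) k) : ℂ :=
  eich f P (mob γ Complex.I) - eich f (polyAct n γ.1 P) Complex.I

theorem per_eq {n : ℕ} (hk : k = n + 2) {γ : SL(2, ℤ)} (hγ : γ ∈ Gamma0 N) {P : ℤ[X]}
    (hP : P.natDegree ≤ n) (f : CuspForm (Gamma0 N) k) {z : ℂ} (hz : 0 < z.im) :
    eich f P (mob γ z) - eich f (polyAct n γ.1 P) z = per n γ P f := by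
  subst hk
  have key : ∃ C : ℂ, ∀ w : ℂ, 0 < w.im →
      (eich f P ∘ mob γ) w - eich f (polyAct n γ.1 P) w = C := by
    refine exists_const_of_hasDerivAt (φ := fun w => aeval w (polyAct n γ.1 P) * ext f w) ?_
      (eich_spec f _).1
    intro w hw
    have hden := den_ne_zero γ hw
    have h1 := (eich_spec f P).1 (mob γ w) (mob_im_pos γ hw)
    have h2 := h1.comp w (hasDerivAt_mob γ hw)
    refine h2.congr_deriv ?_
    beta_reduce
    rw [ext_mob f hγ hw, aeval_polyAct n γ.1 hP w hden]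
    have : ((γ 1 0 : ℂ) * w + (γ 1 1 : ℂ)) ^ ((n : ℤ) + 2)
        = ((γ 1 0 : ℂ) * w + (γ 1 1 : ℂ)) ^ n * ((γ 1 0 : ℂ) * w + (γ 1 1 : ℂ)) ^ 2 := by
      rw [zpow_add₀ hden]
      norm_cast
    rw [this]
    simp only [mob]
    generalize ((γ 1 0 : ℂ) * w + (γ 1 1 : ℂ)) = D at hden ⊢
    field_simp
  obtain ⟨C, hC⟩ := key
  have h1 := hC z hz
  have h2 := hC Complex.I (by simp)
  simp only [Function.comp] at h1 h2
  rw [per, h1, h2]


theorem I_im_pos : 0 < (Complex.I).im := by simp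

theorem mob_mul (γ γ' : SL(2, ℤ)) {z : ℂ} (hz : 0 < z.im) :
    mob (γ * γ') z = mob γ (mob γ' z) := by
  have h := congrArg (fun τ : ℍ => (τ : ℂ)) (mul_smul γ γ' (⟨z, hz⟩ : ℍ))
  simp only [coe_smul_eq_mob] at h
  exact h

theorem mob_one (z : ℂ) : mob 1 z = z := by
  simp [mob]

theorem bottom_ne_zero (γ : SL(2, ℤ)) : γ.1 1 0 ≠ 0 ∨ γ.1 1 1 ≠ 0 := by
  by_contra h
  rw [not_or, not_not, not_not] at h
  have hd := γ.det_coe
  rw [Matrix.det_fin_two, h.1, h.2] at hd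
  simp at hd

theorem per_add_fun (n : ℕ) (γ : SL(2, ℤ)) (P : ℤ[X]) (f g : CuspForm (Gamma0 N) k) :
    per n γ P (f + g) = per n γ P f + per n γ P g := by
  simp only [per]
  rw [eich_add_fun f g P (mob_im_pos γ I_im_pos), eich_add_fun f g _ I_im_pos]
  ring

theorem per_smul_fun (n : ℕ) (γ : SL(2, ℤ)) (P : ℤ[X]) (c : ℂ) (f : CuspForm (Gamma0 N) k) :
    per n γ P (c • f) = c * per n γ P f := by
  simp only [per]
  rw [eich_smul_fun c f P (mob_im_pos γ I_im_pos), eich_smul_fun c f _ I_im_pos]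
  ring

theorem per_add_poly (n : ℕ) (γ : SL(2, ℤ)) (P Q : ℤ[X]) (f : CuspForm (Gamma0 N) k) :
    per n γ (P + Q) f = per n γ P f + per n γ Q f := by
  simp only [per]
  rw [polyAct_add, eich_add_poly f P Q (mob_im_pos γ I_im_pos), eich_add_poly f _ _ I_im_pos]
  ring

theorem per_zsmul_poly (n : ℕ) (γ : SL(2, ℤ)) (m : ℤ) (P : ℤ[X]) (f : CuspForm (Gamma0 N) k) :
    per n γ (m • P) f = m * per n γ P f := by
  simp only [per]
  rw [polyAct_smul, eich_zsmul_poly f m P (mob_im_pos γ I_im_pos), eich_zsmul_poly f m _ I_im_pos]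
  ring

/-- The period functional as a `ℤ`-linear map in the polynomial, valued in the dual. -/
def perHom (N : ℕ) (k : ℤ) (n : ℕ) (γ : SL(2, ℤ)) :
    ℤ[X] →ₗ[ℤ] Module.Dual ℂ (CuspForm (Gamma0 N) k) where
  toFun P :=
    { toFun := fun f => per n γ P f
      map_add' := per_add_fun n γ P
      map_smul' := fun c f => by simpa using per_smul_fun n γ P c f }
  map_add' P Q := by
    ext f
    exact per_add_poly n γ P Q f
  map_smul' m P := by
    ext f
    simpa using per_zsmul_poly n γ m P f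

@[simp] theorem perHom_apply (n : ℕ) (γ : SL(2, ℤ)) (P : ℤ[X]) (f : CuspForm (Gamma0 N) k) :
    perHom N k n γ P f = per n γ P f := rfl

theorem per_mul {n : ℕ} (hk : k = n + 2) {γ γ' : SL(2, ℤ)} (hγ : γ ∈ Gamma0 N)
    {P : ℤ[X]} (hP : P.natDegree ≤ n) (f : CuspForm (Gamma0 N) k) :
    per n (γ * γ') P f = per n γ P f + per n γ' (polyAct n γ.1 P) f := by
  have h1 := per_eq hk hγ hP f (mob_im_pos γ' I_im_pos)
  rw [← h1]
  simp only [per]
  rw [mob_mul γ γ' I_im_pos, Matrix.SpecialLinearGroup.coe_mul,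
    polyAct_mul n γ.1 γ'.1 (bottom_ne_zero γ') P]
  ring

theorem per_one {n : ℕ} {P : ℤ[X]} (hP : P.natDegree ≤ n) (f : CuspForm (Gamma0 N) k) :
    per n 1 P f = 0 := by
  simp only [per]
  rw [mob_one, Matrix.SpecialLinearGroup.coe_one, polyAct_one n hP, sub_self]

theorem per_inv {n : ℕ} (hk : k = n + 2) {γ : SL(2, ℤ)} (hγ : γ ∈ Gamma0 N)
    {P : ℤ[X]} (hP : P.natDegree ≤ n) (f : CuspForm (Gamma0 N) k) :
    per n γ⁻¹ P f = -per n γ (polyAct n (γ⁻¹).1 P) f := by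
  have h1 := per_mul hk (γ' := γ⁻¹) hγ (natDegree_polyAct_le n (γ⁻¹).1 P) f
  rw [mul_inv_cancel, per_one (natDegree_polyAct_le n _ P),
    ← polyAct_mul n _ _ (bottom_ne_zero γ) P, ← Matrix.SpecialLinearGroup.coe_mul,
    inv_mul_cancel, Matrix.SpecialLinearGroup.coe_one, polyAct_one n hP] at h1
  linear_combination -h1

/-- The period lattice. -/
def periodLattice (N : ℕ) (k : ℤ) (n : ℕ) : Submodule ℤ (Module.Dual ℂ (CuspForm (Gamma0 N) k)) :=
  Submodule.span ℤ {φ | ∃ γ ∈ Gamma0 N, ∃ j ≤ n, φ = perHom N k n γ (X ^ j)}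

theorem perHom_mem_span {n : ℕ} (γ : SL(2, ℤ)) {P : ℤ[X]} (hP : P.natDegree ≤ n)
    (M : Submodule ℤ (Module.Dual ℂ (CuspForm (Gamma0 N) k)))
    (hM : ∀ j ≤ n, perHom N k n γ (X ^ j) ∈ M) : perHom N k n γ P ∈ M := by
  rw [P.as_sum_range_C_mul_X_pow' (Nat.lt_succ_of_le hP), map_sum]
  refine M.sum_mem fun j hj => ?_
  have hj' : j ≤ n := Nat.lt_succ_iff.mp (Finset.mem_range.mp hj)
  rw [← smul_eq_C_mul, map_smul]
  exact M.smul_mem _ (hM j hj')

theorem perHom_mem_periodLattice {n : ℕ} {γ : SL(2, ℤ)} (hγ : γ ∈ Gamma0 N) {P : ℤ[X]}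
    (hP : P.natDegree ≤ n) : perHom N k n γ P ∈ periodLattice N k n :=
  perHom_mem_span γ hP _ fun j hj => Submodule.subset_span ⟨γ, hγ, j, hj, rfl⟩

theorem periodLattice_fg [NeZero N] {n : ℕ} (hk : k = n + 2) : (periodLattice N k n).FG := by
  classical
  have hSL : Group.FG SL(2, ℤ) := by
    rw [Group.fg_iff]
    exact ⟨{ModularGroup.S, ModularGroup.T}, SpecialLinearGroup.SL2Z_generators,
      Set.toFinite _⟩
  have hfg : (Gamma0 N).FG := (Group.fg_iff_subgroup_fg _).mp inferInstance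
  obtain ⟨S, hS⟩ := hfg
  set M : Submodule ℤ (Module.Dual ℂ (CuspForm (Gamma0 N) k)) :=
    Submodule.span ℤ ((fun x : SL(2, ℤ) × ℕ => perHom N k n x.1 (X ^ x.2)) ''
      ((S : Set SL(2, ℤ)) ×ˢ (Finset.range (n + 1) : Set ℕ))) with hM
  have hMfg : M.FG := by
    apply Submodule.fg_span
    exact ((S.finite_toSet).prod (Finset.finite_toSet _)).image _
  have hSsub : ∀ γ ∈ S, γ ∈ Gamma0 N := fun γ hγ => hS ▸ Subgroup.subset_closure hγ
  have key : ∀ γ ∈ Subgroup.closure (S : Set SL(2, ℤ)), γ ∈ Gamma0 N ∧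
      ∀ P : ℤ[X], P.natDegree ≤ n → perHom N k n γ P ∈ M := by
    intro γ hγ
    induction hγ using Subgroup.closure_induction with
    | mem γ hγS =>
      refine ⟨hSsub γ hγS, fun P hP => perHom_mem_span γ hP M fun j hj => ?_⟩
      exact Submodule.subset_span ⟨(γ, j), ⟨hγS, by simpa using Nat.lt_succ_of_le hj⟩, rfl⟩
    | one =>
      refine ⟨Subgroup.one_mem _, fun P hP => ?_⟩
      have : perHom N k n 1 P = 0 := by
        ext f
        simpa using per_one hP f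
      rw [this]
      exact M.zero_mem
    | mul γ γ' _ _ ih ih' =>
      refine ⟨Subgroup.mul_mem _ ih.1 ih'.1, fun P hP => ?_⟩
      have : perHom N k n (γ * γ') P = perHom N k n γ P + perHom N k n γ' (polyAct n γ.1 P) := by
        ext f
        simpa using per_mul hk ih.1 hP f
      rw [this]
      exact M.add_mem (ih.2 P hP) (ih'.2 _ (natDegree_polyAct_le n _ P))
    | inv γ _ ih =>
      refine ⟨Subgroup.inv_mem _ ih.1, fun P hP => ?_⟩
      have : perHom N k n γ⁻¹ P = -perHom N k n γ (polyAct n (γ⁻¹).1 P) := by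
        ext f
        simpa using per_inv hk ih.1 hP f
      rw [this]
      exact M.neg_mem (ih.2 _ (natDegree_polyAct_le n _ P))
  have hle : periodLattice N k n ≤ M := by
    apply Submodule.span_le.mpr
    rintro φ ⟨γ, hγ, j, hj, rfl⟩
    refine (key γ (hS ▸ hγ)).2 _ ?_
    exact (natDegree_X_pow_le j).trans hj
  have hge : M ≤ periodLattice N k n := by
    apply Submodule.span_le.mpr
    rintro φ ⟨⟨γ, j⟩, ⟨hγS, hj⟩, rfl⟩
    have hj' : j ≤ n := Nat.lt_succ_iff.mp (by simpa using hj)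
    exact Submodule.subset_span ⟨γ, hSsub γ hγS, j, hj', rfl⟩
  rw [le_antisymm hle hge]
  exact hMfg

end Fermat.Agent.S22.Period
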