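import Fermat.Agent.S22.Abstract
import Fermat.Agent.S22.LowWeight
import Fermat.Agent.S22.Period

/-!
# S22: final wiring

`Module.Finite ℤ (heckeAlgebra N k S)` from Hecke-stability and separation of the period lattice.
-/

set_option autoImplicit false

noncomputable section

namespace Fermat.Agent.S22.Assembly

open CongruenceSubgroup CuspForm
open Fermat.Agent.S22.Period

/-- Final wiring for S22: given that the period lattice is stable under the Hecke generators
and separates cusp forms (for weights `k = n + 2`), the Hecke algebra is a finite `ℤ`-module. -/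
theorem finite_heckeAlgebra (N : ℕ) [NeZero N] (k : ℤ) (S : Set ℕ)
    (hstable : ∀ n : ℕ, k = n + 2 → ∀ g ∈ heckeGenerators N k S,
      ∀ φ ∈ periodLattice N k n, φ ∘ₗ g ∈ periodLattice N k n)
    (hsep : ∀ n : ℕ, k = n + 2 → ∀ f : CuspForm (Gamma0 N) k,
      (∀ φ ∈ periodLattice N k n, φ f = 0) → f = 0) :
    Module.Finite ℤ (heckeAlgebra N k S) := by
  by_cases hk : k ≤ 1
  · exact LowWeight.finite_heckeAlgebra_of_le_one hk S
  · obtain ⟨n, hn⟩ : ∃ n : ℕ, k = n + 2 := ⟨(k - 2).toNat, by omega⟩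
    exact Abstract.finite_adjoin_of_stable_lattice (heckeGenerators N k S) (periodLattice N k n)
      (periodLattice_fg hn) (hstable n hn) (hsep n hn)

/-- Variant with the stability hypothesis split into the two families of generators. -/
theorem finite_heckeAlgebra' (N : ℕ) [NeZero N] (k : ℤ) (S : Set ℕ)
    (hT : ∀ n : ℕ, k = n + 2 → ∀ (ℓ : ℕ) (hℓ : ℓ.Prime) (hℓN : ¬ ℓ ∣ N),
      ∀ φ ∈ periodLattice N k n, φ ∘ₗ heckeTLin k hℓ hℓN ∈ periodLattice N k n)
    (hU : ∀ n : ℕ, k = n + 2 → ∀ (q : ℕ) (hqN : q ∣ N), q.Prime →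
      ∀ φ ∈ periodLattice N k n, φ ∘ₗ heckeULin k hqN ∈ periodLattice N k n)
    (hsep : ∀ n : ℕ, k = n + 2 → ∀ f : CuspForm (Gamma0 N) k,
      (∀ φ ∈ periodLattice N k n, φ f = 0) → f = 0) :
    Module.Finite ℤ (heckeAlgebra N k S) := by
  refine finite_heckeAlgebra N k S (fun n hn g hg φ hφ => ?_) hsep
  rcases hg with ⟨ℓ, hℓ, hℓN, -, rfl⟩ | ⟨q, hqN, hq, -, rfl⟩
  · exact hT n hn ℓ hℓ hℓN φ hφ
  · exact hU n hn q hqN hq φ hφ

end Fermat.Agent.S22.Assembly
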