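import Mathlib
import Fermat.Prelude.Thm_Subgroup_IsArithmetic_exists_nat_mem_strictPeriods_conj
import Fermat.Agent.S22.Primitive

/-!
# S22: endgame of the separation step

A holomorphic function `G` on the upper half plane which is invariant of weight `k ≤ 0` under
`Γ₀(N)` and such that every `SL(2,ℤ)`-translate `G ∣[k] σ` is the sum of a `CuspLike` function and
a polynomial, is constant (and zero if `k < 0`).
-/

set_option autoImplicit false

noncomputable section

namespace Fermat.Agent.S22.CuspBound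

open Filter Topology UpperHalfPlane Matrix.SpecialLinearGroup
open Fermat.Agent.S22.Primitive
open scoped MatrixGroups ModularForm Manifold Pointwise

/-- A polynomial which tends to `0` along the imaginary axis is zero. -/
theorem poly_eq_zero_of_tendsto (q : Polynomial ℂ)
    (hq : Tendsto (fun y : ℝ => q.eval ((y : ℂ) * Complex.I)) atTop (𝓝 0)) : q = 0 := by
  by_contra hne
  have hz : Tendsto (fun y : ℝ => ‖(y : ℂ) * Complex.I‖) atTop atTop := by
    have : (fun y : ℝ => ‖(y : ℂ) * Complex.I‖) = fun y : ℝ => |y| := by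
      funext y; simp
    rw [this]
    exact tendsto_abs_atTop_atTop
  by_cases hdeg : 0 < q.degree
  · have h1 := q.tendsto_norm_atTop hdeg hz
    have h2 : Tendsto (fun y : ℝ => ‖q.eval ((y : ℂ) * Complex.I)‖) atTop (𝓝 0) := by
      simpa using hq.norm
    exact not_tendsto_nhds_of_tendsto_atTop h1 _ h2
  · have hdeg' : q.degree ≤ 0 := not_lt.mp hdeg
    rw [Polynomial.eq_C_of_degree_le_zero hdeg'] at hq hne
    simp only [Polynomial.eval_C] at hq
    have h0 : q.coeff 0 = 0 := tendsto_nhds_unique tendsto_const_nhds hq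
    rw [h0] at hne
    simp at hne

/-- A complex polynomial invariant under a nonzero translation is constant. -/
theorem poly_eq_C_of_comp_translate (p : Polynomial ℂ) {M : ℂ} (hM : M ≠ 0)
    (hp : p.comp (Polynomial.X + Polynomial.C M) = p) : p = Polynomial.C (p.eval 0) := by
  have hval : ∀ n : ℕ, p.eval ((n : ℂ) * M) = p.eval 0 := by
    intro n
    induction n with
    | zero => simp
    | succ n ih =>
      rw [← ih]
      have := congrArg (Polynomial.eval ((n : ℂ) * M)) hp
      rw [Polynomial.eval_comp] at this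
      simp only [Polynomial.eval_add, Polynomial.eval_X, Polynomial.eval_C] at this
      rw [← this]
      congr 1
      push_cast
      ring
  apply Polynomial.eq_of_infinite_eval_eq
  refine Set.infinite_of_injective_forall_mem (f := fun n : ℕ => (n : ℂ) * M) ?_ ?_
  · intro a b hab
    have := mul_right_cancel₀ hM hab
    exact_mod_cast this
  · intro n
    simp only [Set.mem_ofPred_eq, Polynomial.eval_C]
    exact hval n

/-- `CuspLike` plus a constant is bounded at `i∞`. -/
theorem isBoundedAtImInfty_of_cuspLike {h : ℝ} (hh : 0 < h) {E : ℂ → ℂ} (hE : CuspLike h E)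
    (c : ℂ) : IsBoundedAtImInfty (fun z : ℍ => E (z : ℂ) + c) := by
  obtain ⟨C, A, hA, hC0, hb⟩ := hE.exp_bound hh
  rw [isBoundedAtImInfty_iff]
  refine ⟨C + ‖c‖, A, fun z hz => ?_⟩
  have h1 := hb (z : ℂ) hz
  have h2 : Real.exp (-2 * Real.pi * (z : ℂ).im / h) ≤ 1 := by
    apply Real.exp_le_one_iff.mpr
    have hz0 : 0 < (z : ℂ).im := z.2
    have : 0 ≤ 2 * Real.pi * (z : ℂ).im / h := by positivity
    have e : -2 * Real.pi * (z : ℂ).im / h = -(2 * Real.pi * (z : ℂ).im / h) := by ring
    rw [e]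
    linarith
  calc ‖E (z : ℂ) + c‖ ≤ ‖E (z : ℂ)‖ + ‖c‖ := norm_add_le _ _
    _ ≤ C * 1 + ‖c‖ := by
        gcongr
        exact h1.trans (mul_le_mul_of_nonneg_left h2 hC0)
    _ = C + ‖c‖ := by ring

/-- If `F = E + p` on the upper half plane with `E` cusp-like and `p` a polynomial, and `F` is
invariant under a nonzero real translation, then `p` is constant. -/
theorem poly_const_of_periodic {h : ℝ} (hh : 0 < h) {E : ℂ → ℂ} (hE : CuspLike h E)
    (p : Polynomial ℂ) {M : ℝ} (hM : M ≠ 0) (F : ℂ → ℂ)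
    (hF : ∀ z : ℂ, 0 < z.im → F z = E z + p.eval z)
    (hper : ∀ z : ℂ, 0 < z.im → F (z + M) = F z) :
    p = Polynomial.C (p.eval 0) := by
  have hMc : (M : ℂ) ≠ 0 := by exact_mod_cast hM
  apply poly_eq_C_of_comp_translate p hMc
  rw [← sub_eq_zero]
  apply poly_eq_zero_of_tendsto
  have h0 := hE.tendsto_pow_mul hh 0 0
  have h1 := hE.tendsto_pow_mul hh 0 M
  simp only [pow_zero, one_mul] at h0 h1
  have h2 := h0.sub h1
  rw [sub_zero] at h2
  refine h2.congr' ?_
  filter_upwards [eventually_gt_atTop 0] with y hy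
  have him : 0 < ((y : ℂ) * Complex.I).im := by simpa using hy
  have e1 := hF _ him
  have him' : 0 < ((y : ℂ) * Complex.I + M).im := by simpa using hy
  have e2 := hF _ him'
  have e3 := hper _ him
  simp only [Polynomial.eval_sub, Polynomial.eval_comp, Polynomial.eval_add, Polynomial.eval_X,
    Polynomial.eval_C]
  have a1 : ((0 : ℝ) : ℂ) + (y : ℂ) * Complex.I = (y : ℂ) * Complex.I := by simp
  have a2 : (M : ℂ) + (y : ℂ) * Complex.I = (y : ℂ) * Complex.I + M := by ring
  rw [a1, a2]
  rw [e3, e1] at e2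
  linear_combination e2

/-- Endgame of the separation step: a holomorphic weight `k ≤ 0` invariant function for
`Γ₀(N)`, all of whose `SL(2,ℤ)`-translates are "cusp-like plus polynomial", is constant, and is
zero if `k < 0`. -/
theorem eq_const_of_cusp_expansions {N : ℕ} [NeZero N] {k : ℤ} (hk : k ≤ 0) (G : ℍ → ℂ)
    (hol : MDiff G)
    (hinv : ∀ γ ∈ (CongruenceSubgroup.Gamma0 N : Subgroup (GL (Fin 2) ℝ)), G ∣[k] γ = G)
    (hexp : ∀ σ : SL(2, ℤ), ∃ (h : ℝ) (E : ℂ → ℂ) (p : Polynomial ℂ), 0 < h ∧ CuspLike h E ∧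
      ∀ z : ℍ, (G ∣[k] (mapGL ℝ σ)) z = E (z : ℂ) + p.eval (z : ℂ)) :
    ∃ c : ℂ, (∀ z : ℍ, G z = c) ∧ (k < 0 → c = 0) := by
  set Γ : Subgroup (GL (Fin 2) ℝ) := (CongruenceSubgroup.Gamma0 N : Subgroup (GL (Fin 2) ℝ))
    with hΓ
  obtain ⟨M, hMpos, hMper⟩ := Subgroup.IsArithmetic.exists_nat_mem_strictPeriods_conj Γ
  let G₀ : SlashInvariantForm Γ k := { toFun := G, slash_action_eq' := hinv }
  -- boundedness of every translate
  have hbdd : ∀ σ : SL(2, ℤ), IsBoundedAtImInfty (G ∣[k] (mapGL ℝ σ)) := by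
    intro σ
    obtain ⟨h, E, p, hh, hE, hEp⟩ := hexp σ
    -- periodicity of the translate
    have hper : ∀ z : ℍ, (G ∣[k] (mapGL ℝ σ)) ((M : ℝ) +ᵥ z) = (G ∣[k] (mapGL ℝ σ)) z := by
      intro z
      have hmem := hMper σ⁻¹
      rw [map_inv] at hmem
      exact SlashInvariantForm.vAdd_apply_of_mem_strictPeriods
        (SlashInvariantForm.translate G₀ (mapGL ℝ σ)) z hmem
    have hMne : (M : ℝ) ≠ 0 := by exact_mod_cast hMpos.ne'
    have hpc : p = Polynomial.C (p.eval 0) := by
      refine poly_const_of_periodic hh hE p hMne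
        (fun w => (G ∣[k] (mapGL ℝ σ)) (ofComplex w)) ?_ ?_
      · intro z hz
        simp only [ofComplex_apply_of_im_pos hz]
        exact hEp ⟨z, hz⟩
      · intro z hz
        have hz' : 0 < (z + (M : ℝ)).im := by simpa using hz
        simp only [ofComplex_apply_of_im_pos hz, ofComplex_apply_of_im_pos hz']
        rw [← hper ⟨z, hz⟩]
        refine congrArg _ ?_
        apply UpperHalfPlane.ext
        simp [UpperHalfPlane.coe_vadd, add_comm]
    have hfun : (G ∣[k] (mapGL ℝ σ)) = fun z : ℍ => E (z : ℂ) + p.eval 0 := by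
      funext z
      rw [hEp z]
      conv_lhs => rw [hpc]
      simp
    rw [hfun]
    exact isBoundedAtImInfty_of_cuspLike hh hE _
  let Gm : ModularForm Γ k :=
    { toFun := G
      slash_action_eq' := hinv
      holo' := hol
      bdd_at_cusps' := fun {c} hc => by
        have hc' : IsCusp c 𝒮ℒ := (Subgroup.IsArithmetic.isCusp_iff_isCusp_SL2Z Γ).mp hc
        rw [OnePoint.isBoundedAt_iff_exists_SL2Z hc']
        obtain ⟨γ, rfl⟩ := isCusp_SL2Z_iff'.mp hc'
        exact ⟨γ, rfl, hbdd γ⟩ }
  rcases hk.lt_or_eq with hneg | rfl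
  · refine ⟨0, fun z => ?_, fun _ => rfl⟩
    have h0 : Gm = 0 := ModularForm.isZero_of_neg_weight hneg Gm
    have := congrArg (fun f : ModularForm Γ k => f z) h0
    exact this
  · obtain ⟨c, hc⟩ := ModularForm.eq_const_of_weight_zero Gm
    refine ⟨c, fun z => ?_, fun h => absurd h (lt_irrefl _)⟩
    have := congrFun hc z
    exact this

end Fermat.Agent.S22.CuspBound
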