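import Mathlib
import Fermat.Prelude.Def_CuspForm_HeckeAlgebra

set_option autoImplicit false

/-!
# S22: shared interface (cusp-normalised primitives, polynomial weight action)
-/

namespace Fermat.Agent.S22

open UpperHalfPlane Filter Polynomial

/-- `IsCuspPrimitive g F`: `F` is a holomorphic primitive of `g` on the upper half plane which
tends to `0` along every vertical line. -/
structure IsCuspPrimitive (g F : ℍ → ℂ) : Prop where
  hasDerivAt : ∀ z : ℍ, HasDerivAt (F ∘ ofComplex) (g z) (z : ℂ)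
  tendsto_zero : ∀ x : ℝ,
    Tendsto (fun y : ℝ => F (ofComplex ((x : ℂ) + (y : ℂ) * Complex.I))) atTop (nhds 0)

namespace IsCuspPrimitive

variable {g g₁ g₂ F F₁ F₂ : ℍ → ℂ}

theorem zero : IsCuspPrimitive (0 : ℍ → ℂ) 0 where
  hasDerivAt z := by
    have : ((0 : ℍ → ℂ) ∘ ofComplex) = fun _ => (0 : ℂ) := rfl
    rw [this]
    exact hasDerivAt_const _ _
  tendsto_zero x := tendsto_const_nhds

theorem add (h₁ : IsCuspPrimitive g₁ F₁) (h₂ : IsCuspPrimitive g₂ F₂) :
    IsCuspPrimitive (g₁ + g₂) (F₁ + F₂) where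
  hasDerivAt z := (h₁.hasDerivAt z).add (h₂.hasDerivAt z)
  tendsto_zero x := by simpa using (h₁.tendsto_zero x).add (h₂.tendsto_zero x)

theorem const_smul (c : ℂ) (h : IsCuspPrimitive g F) : IsCuspPrimitive (c • g) (c • F) where
  hasDerivAt z := (h.hasDerivAt z).const_smul c
  tendsto_zero x := by simpa using (h.tendsto_zero x).const_smul c

theorem neg (h : IsCuspPrimitive g F) : IsCuspPrimitive (-g) (-F) where
  hasDerivAt z := (h.hasDerivAt z).neg
  tendsto_zero x := by simpa using (h.tendsto_zero x).neg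

theorem sub (h₁ : IsCuspPrimitive g₁ F₁) (h₂ : IsCuspPrimitive g₂ F₂) :
    IsCuspPrimitive (g₁ - g₂) (F₁ - F₂) where
  hasDerivAt z := (h₁.hasDerivAt z).sub (h₂.hasDerivAt z)
  tendsto_zero x := by simpa using (h₁.tendsto_zero x).sub (h₂.tendsto_zero x)

theorem sum {ι : Type*} (s : Finset ι) {g F : ι → ℍ → ℂ}
    (h : ∀ i ∈ s, IsCuspPrimitive (g i) (F i)) :
    IsCuspPrimitive (∑ i ∈ s, g i) (∑ i ∈ s, F i) := by
  classical
  induction s using Finset.induction_on with
  | empty => simpa using zero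
  | insert a s ha ih =>
    rw [Finset.sum_insert ha, Finset.sum_insert ha]
    exact (h a (Finset.mem_insert_self a s)).add
      (ih fun i hi => h i (Finset.mem_insert_of_mem hi))

theorem congr_left (h : IsCuspPrimitive g₁ F) (hg : g₁ = g₂) : IsCuspPrimitive g₂ F := hg ▸ h

/-- A function on `ℍ` whose derivative vanishes identically is constant. -/
theorem const_of_hasDerivAt_zero {G : ℍ → ℂ}
    (hG : ∀ z : ℍ, HasDerivAt (G ∘ ofComplex) 0 (z : ℂ)) (z w : ℍ) : G z = G w := by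
  have hconv : Convex ℝ {z : ℂ | 0 < z.im} := by
    have : {z : ℂ | 0 < z.im} = Complex.imCLM ⁻¹' (Set.Ioi 0) := rfl
    rw [this]
    exact (convex_Ioi 0).linear_preimage Complex.imCLM.toLinearMap
  have hdiff : DifferentiableOn ℂ (G ∘ ofComplex) {z : ℂ | 0 < z.im} := fun x hx =>
    ((hG ⟨x, hx⟩).differentiableAt).differentiableWithinAt
  have hopen : IsOpen {z : ℂ | 0 < z.im} := isOpen_upperHalfPlaneSet
  have hder : ∀ x ∈ {z : ℂ | 0 < z.im}, fderivWithin ℂ (G ∘ ofComplex) {z : ℂ | 0 < z.im} x = 0 := by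
    intro x hx
    rw [fderivWithin_of_isOpen hopen hx]
    have := (hG ⟨x, hx⟩).hasFDerivAt.fderiv
    rw [this]
    ext
    simp
  have key := hconv.is_const_of_fderivWithin_eq_zero hdiff hder z.2 w.2
  simpa [Function.comp, ofComplex_apply] using key

theorem unique (h₁ : IsCuspPrimitive g F₁) (h₂ : IsCuspPrimitive g F₂) : F₁ = F₂ := by
  have hsub := h₁.sub h₂
  have hzero : ∀ z : ℍ, HasDerivAt ((F₁ - F₂) ∘ ofComplex) 0 (z : ℂ) := by
    intro z
    have := hsub.hasDerivAt z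
    simpa using this
  funext z
  have hconst : ∀ w : ℍ, (F₁ - F₂) w = (F₁ - F₂) z := fun w => const_of_hasDerivAt_zero hzero w z
  have hlim := hsub.tendsto_zero 0
  have hev : ∀ᶠ y : ℝ in atTop, (F₁ - F₂) (ofComplex (((0 : ℝ) : ℂ) + (y : ℂ) * Complex.I))
      = (F₁ - F₂) z := Eventually.of_forall fun y => hconst _
  have h0 : (F₁ - F₂) z = 0 :=
    tendsto_nhds_unique (tendsto_const_nhds.congr' (hev.mono fun y hy => hy.symm)) hlim
  simpa [sub_eq_zero] using h0



theorem comp_affine (h : IsCuspPrimitive g F) (m : ℍ → ℍ) (α β : ℝ) (hα : 0 < α)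
    (hm : ∀ z : ℍ, (m z : ℂ) = (α : ℂ) * (z : ℂ) + (β : ℂ)) :
    IsCuspPrimitive (fun z => (α : ℂ) * g (m z)) (F ∘ m) where
  hasDerivAt z := by
    have hz : 0 < (z : ℂ).im := z.2
    have hopen : IsOpen {w : ℂ | 0 < w.im} := isOpen_upperHalfPlaneSet
    have hev : ((F ∘ m) ∘ ofComplex) =ᶠ[nhds (z : ℂ)]
        (F ∘ ofComplex) ∘ (fun w : ℂ => (α : ℂ) * w + (β : ℂ)) := by
      filter_upwards [hopen.mem_nhds hz] with w hw
      simp only [Function.comp]
      congr 1
      apply UpperHalfPlane.ext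
      rw [hm, ofComplex_apply_of_im_pos hw]
      have him : 0 < ((α : ℂ) * w + (β : ℂ)).im := by
        simp only [Complex.add_im, Complex.mul_im, Complex.ofReal_re, Complex.ofReal_im, zero_mul,
          add_zero]
        exact mul_pos hα hw
      rw [ofComplex_apply_of_im_pos him]
    have h1 : HasDerivAt (fun w : ℂ => (α : ℂ) * w + (β : ℂ)) (α : ℂ) (z : ℂ) := by
      simpa using ((hasDerivAt_id (z : ℂ)).const_mul (α : ℂ)).add_const (β : ℂ)
    have h2 := h.hasDerivAt (m z)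
    rw [hm z] at h2
    have h3 := h2.comp (z : ℂ) h1
    refine (h3.congr_of_eventuallyEq hev).congr_deriv ?_
    ring
  tendsto_zero x := by
    have h1 := h.tendsto_zero (α * x + β)
    have h2 : Tendsto (fun y : ℝ => α * y) atTop atTop :=
      Tendsto.const_mul_atTop hα tendsto_id
    have h3 := h1.comp h2
    refine h3.congr' ?_
    filter_upwards [eventually_gt_atTop 0] with y hy
    simp only [Function.comp]
    congr 1
    apply UpperHalfPlane.ext
    have him : 0 < ((x : ℂ) + (y : ℂ) * Complex.I).im := by simpa using hy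
    rw [hm, ofComplex_apply_of_im_pos him]
    have him' : 0 < (((α * x + β : ℝ) : ℂ) + ((α * y : ℝ) : ℂ) * Complex.I).im := by
      simpa using mul_pos hα hy
    rw [ofComplex_apply_of_im_pos him']
    push_cast
    ring

end IsCuspPrimitive

/-- weight `-n` right action of integer matrices on integer polynomials of degree `≤ n`. -/
noncomputable def polyAct (n : ℕ) (g : Matrix (Fin 2) (Fin 2) ℤ) (P : ℤ[X]) : ℤ[X] :=
  ∑ j ∈ Finset.range (n + 1),
    C (P.coeff j) * (C (g 0 0) * X + C (g 0 1)) ^ j * (C (g 1 0) * X + C (g 1 1)) ^ (n - j)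

theorem natDegree_polyAct_le (n : ℕ) (g : Matrix (Fin 2) (Fin 2) ℤ) (P : ℤ[X]) :
    (polyAct n g P).natDegree ≤ n := by
  unfold polyAct
  refine Polynomial.natDegree_sum_le_of_forall_le _ _ fun j hj => ?_
  have hj' : j ≤ n := Nat.lt_succ_iff.mp (Finset.mem_range.mp hj)
  have h1 : (C (g 0 0) * X + C (g 0 1) : ℤ[X]).natDegree ≤ 1 := natDegree_linear_le
  have h2 : (C (g 1 0) * X + C (g 1 1) : ℤ[X]).natDegree ≤ 1 := natDegree_linear_le
  calc (C (P.coeff j) * (C (g 0 0) * X + C (g 0 1)) ^ j * (C (g 1 0) * X + C (g 1 1)) ^ (n - j)).natDegree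
      ≤ (C (P.coeff j) * (C (g 0 0) * X + C (g 0 1)) ^ j).natDegree
          + ((C (g 1 0) * X + C (g 1 1)) ^ (n - j)).natDegree := natDegree_mul_le
    _ ≤ ((C (P.coeff j)).natDegree + ((C (g 0 0) * X + C (g 0 1)) ^ j).natDegree)
          + ((C (g 1 0) * X + C (g 1 1)) ^ (n - j)).natDegree := by gcongr; exact natDegree_mul_le
    _ ≤ (0 + j * 1) + (n - j) * 1 := by
        gcongr
        · simp
        · exact (natDegree_pow_le).trans (Nat.mul_le_mul_left _ h1)
        · exact (natDegree_pow_le).trans (Nat.mul_le_mul_left _ h2)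
    _ = n := by omega

theorem polyAct_add (n : ℕ) (g : Matrix (Fin 2) (Fin 2) ℤ) (P Q : ℤ[X]) :
    polyAct n g (P + Q) = polyAct n g P + polyAct n g Q := by
  unfold polyAct
  rw [← Finset.sum_add_distrib]
  refine Finset.sum_congr rfl fun j _ => ?_
  rw [coeff_add, C_add]
  ring

theorem polyAct_zero (n : ℕ) (g : Matrix (Fin 2) (Fin 2) ℤ) : polyAct n g 0 = 0 := by
  simp [polyAct]

theorem polyAct_smul (n : ℕ) (g : Matrix (Fin 2) (Fin 2) ℤ) (m : ℤ) (P : ℤ[X]) :
    polyAct n g (m • P) = m • polyAct n g P := by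
  unfold polyAct
  rw [Finset.smul_sum]
  refine Finset.sum_congr rfl fun j _ => ?_
  rw [coeff_smul, smul_eq_mul, C_mul, smul_eq_C_mul]
  ring

theorem polyAct_neg (n : ℕ) (g : Matrix (Fin 2) (Fin 2) ℤ) (P : ℤ[X]) :
    polyAct n g (-P) = -polyAct n g P := by
  have := polyAct_smul n g (-1) P
  simpa using this

theorem aeval_polyAct (n : ℕ) (g : Matrix (Fin 2) (Fin 2) ℤ) {P : ℤ[X]} (hP : P.natDegree ≤ n)
    (z : ℂ) (hz : (g 1 0 : ℂ) * z + (g 1 1 : ℂ) ≠ 0) :
    aeval z (polyAct n g P) = ((g 1 0 : ℂ) * z + (g 1 1 : ℂ)) ^ n *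
      aeval (((g 0 0 : ℂ) * z + (g 0 1 : ℂ)) / ((g 1 0 : ℂ) * z + (g 1 1 : ℂ))) P := by
  unfold polyAct
  rw [map_sum]
  conv_rhs => rw [P.as_sum_range' (n + 1) (Nat.lt_succ_of_le hP), map_sum, Finset.mul_sum]
  refine Finset.sum_congr rfl fun j hj => ?_
  have hj' : j ≤ n := Nat.lt_succ_iff.mp (Finset.mem_range.mp hj)
  simp only [map_mul, map_pow, map_add, aeval_C, aeval_X, aeval_monomial]
  simp only [algebraMap_int_eq, eq_intCast]
  rw [div_pow]
  have : ((g 1 0 : ℂ) * z + (g 1 1 : ℂ)) ^ n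
      = ((g 1 0 : ℂ) * z + (g 1 1 : ℂ)) ^ j * ((g 1 0 : ℂ) * z + (g 1 1 : ℂ)) ^ (n - j) := by
    rw [← pow_add]; congr 1; omega
  rw [this]
  have hzj : ((g 1 0 : ℂ) * z + (g 1 1 : ℂ)) ^ j ≠ 0 := pow_ne_zero _ hz
  have key : ∀ (D A B : ℂ), D ^ j ≠ 0 →
      A * B ^ j * D ^ (n - j) = D ^ j * D ^ (n - j) * (A * (B ^ j / D ^ j)) := by
    intro D A B hD
    field_simp
  exact key _ _ _ hzj

theorem aeval_polyAct' (n : ℕ) (g : Matrix (Fin 2) (Fin 2) ℤ) (P : ℤ[X]) (z : ℂ) :
    aeval z (polyAct n g P) = ∑ j ∈ Finset.range (n + 1), (P.coeff j : ℂ) *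
      ((g 0 0 : ℂ) * z + (g 0 1 : ℂ)) ^ j * ((g 1 0 : ℂ) * z + (g 1 1 : ℂ)) ^ (n - j) := by
  unfold polyAct
  rw [map_sum]
  refine Finset.sum_congr rfl fun j _ => ?_
  simp only [map_mul, map_pow, map_add, aeval_C, aeval_X]
  simp only [algebraMap_int_eq, eq_intCast]

theorem polyAct_mul (n : ℕ) (g h : Matrix (Fin 2) (Fin 2) ℤ) (hh : h 1 0 ≠ 0 ∨ h 1 1 ≠ 0)
    (P : ℤ[X]) : polyAct n (g * h) P = polyAct n h (polyAct n g P) := by
  apply Polynomial.map_injective (Int.castRingHom ℂ) Int.cast_injective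
  apply Polynomial.eq_of_infinite_eval_eq _ _
  have hinf : Set.Infinite {z : ℂ | 0 < z.im} := by
    refine Set.infinite_of_injective_forall_mem (f := fun m : ℕ => ((m : ℂ) + 1) * Complex.I) ?_ ?_
    · intro a b hab
      have := congrArg Complex.im hab
      simpa using this
    · intro m
      show 0 < (((m : ℂ) + 1) * Complex.I).im
      simp
      positivity
  refine Set.Infinite.mono ?_ hinf
  intro z hz
  have hz' : 0 < z.im := hz
  have hB : ((h 1 0 : ℂ) * z + (h 1 1 : ℂ)) ≠ 0 := by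
    intro h0
    have him := congrArg Complex.im h0
    have hre := congrArg Complex.re h0
    simp only [Complex.add_im, Complex.mul_im, Complex.intCast_re, Complex.intCast_im, zero_mul,
      add_zero, Complex.zero_im, Complex.add_re, Complex.mul_re, Complex.zero_re, sub_zero] at him hre
    have h10 : (h 1 0 : ℝ) = 0 := by
      rcases mul_eq_zero.mp him with h' | h'
      · exact h'
      · exact absurd h' hz'.ne'
    rw [h10] at hre
    have h11 : (h 1 1 : ℝ) = 0 := by simpa using hre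
    rcases hh with h' | h'
    · exact h' (by exact_mod_cast h10)
    · exact h' (by exact_mod_cast h11)
  show eval z (map (Int.castRingHom ℂ) (polyAct n (g * h) P))
    = eval z (map (Int.castRingHom ℂ) (polyAct n h (polyAct n g P)))
  have e : ∀ Q : ℤ[X], eval z (map (Int.castRingHom ℂ) Q) = aeval z Q := by
    intro Q
    rw [eval_map, aeval_def]
    rfl
  rw [e, e, aeval_polyAct n h (natDegree_polyAct_le n g P) z hB, aeval_polyAct', aeval_polyAct',
    Finset.mul_sum]
  refine Finset.sum_congr rfl fun j hj => ?_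
  have hj' : j ≤ n := Nat.lt_succ_iff.mp (Finset.mem_range.mp hj)
  have hn : ((h 1 0 : ℂ) * z + (h 1 1 : ℂ)) ^ n
      = ((h 1 0 : ℂ) * z + (h 1 1 : ℂ)) ^ j * ((h 1 0 : ℂ) * z + (h 1 1 : ℂ)) ^ (n - j) := by
    rw [← pow_add]; congr 1; omega
  rw [hn]
  simp only [Matrix.mul_apply, Fin.sum_univ_two]
  push_cast
  have key : ∀ (B A p a b c d : ℂ), B ≠ 0 →
      p * ((a * A + b * B)) ^ j * ((c * A + d * B)) ^ (n - j)
      = B ^ j * B ^ (n - j) * (p * (a * (A / B) + b) ^ j * (c * (A / B) + d) ^ (n - j)) := by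
    intro B A p a b c d hB
    have h1 : a * (A / B) + b = (a * A + b * B) / B := by field_simp
    have h2 : c * (A / B) + d = (c * A + d * B) / B := by field_simp
    rw [h1, h2, div_pow, div_pow]
    field_simp
  rw [← key _ _ _ _ _ _ _ hB]
  ring

theorem polyAct_one (n : ℕ) {P : ℤ[X]} (hP : P.natDegree ≤ n) : polyAct n 1 P = P := by
  unfold polyAct
  conv_rhs => rw [P.as_sum_range_C_mul_X_pow' (Nat.lt_succ_of_le hP)]
  refine Finset.sum_congr rfl fun j _ => ?_
  simp

end Fermat.Agent.S22
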