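import Fermat.Agent.S22.Period
import Fermat.Prelude.Def_CuspForm_HeckeAlgebra

/-!
# S22: the period lattice is stable under the Hecke operators
-/

set_option autoImplicit false

noncomputable section

namespace Fermat.Agent.S22.HeckeStable

open UpperHalfPlane Polynomial CongruenceSubgroup Filter ModularForm
open Fermat.Agent.S22.Primitive Fermat.Agent.S22.Period
open P2MW.S_ModularForm_heckeT_slash_eq_self_of_mem_Gamma0.ModularForm.HeckeSlashInvariance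
open scoped MatrixGroups ModularForm

variable {N : ℕ} {k : ℤ}

theorem isNormPrim_comp_affine {φ F : ℂ → ℂ} (hF : IsNormPrim φ F) (α β : ℝ) (hα : 0 < α) :
    IsNormPrim (fun z => (α : ℂ) * φ ((α : ℂ) * z + β)) (fun z => F ((α : ℂ) * z + β)) := by
  have him : ∀ w : ℂ, ((α : ℂ) * w + β).im = α * w.im := fun w => by simp
  refine ⟨fun w hw => ?_, fun x => ?_⟩
  · have hw' : 0 < ((α : ℂ) * w + β).im := by rw [him]; exact mul_pos hα hw
    have h1 := hF.1 _ hw'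
    have h2 : HasDerivAt (fun u : ℂ => (α : ℂ) * u + β) (α : ℂ) w := by
      simpa using ((hasDerivAt_id w).const_mul (α : ℂ)).add_const (β : ℂ)
    have h3 := h1.comp w h2
    refine h3.congr_deriv ?_
    ring
  · have h1 := hF.2 (α * x + β)
    have h2 : Tendsto (fun y : ℝ => α * y) atTop atTop :=
      tendsto_id.const_mul_atTop hα
    have h3 := h1.comp h2
    refine h3.congr fun y => ?_
    simp only [Function.comp_apply]
    congr 1
    push_cast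
    ring

theorem isNormPrim_sum {ι : Type*} (s : Finset ι) {φ F : ι → ℂ → ℂ}
    (h : ∀ i ∈ s, IsNormPrim (φ i) (F i)) :
    IsNormPrim (fun z => ∑ i ∈ s, φ i z) (fun z => ∑ i ∈ s, F i z) := by
  classical
  induction s using Finset.induction_on with
  | empty => simpa using isNormPrim_zero
  | insert a s ha ih =>
    simp only [Finset.sum_insert ha]
    exact (h a (Finset.mem_insert_self a s)).add
      (ih fun i hi => h i (Finset.mem_insert_of_mem hi))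

section abstractHecke

variable {ι : Type} [Fintype ι] (δ : ι → GL (Fin 2) ℝ) (A : ι → Matrix (Fin 2) (Fin 2) ℤ)
  (α β : ι → ℝ) (c : ι → ℂ) {n : ℕ}

theorem eich_hecke (hα : ∀ i, 0 < α i)
    (hδ : ∀ i (τ : ℍ), ((δ i • τ : ℍ) : ℂ) = (α i : ℂ) * τ + β i)
    (hA : ∀ i (P : ℤ[X]), P.natDegree ≤ n → ∀ z : ℂ,
      (α i : ℂ) * aeval ((α i : ℂ) * z + β i) (polyAct n (A i) P) = c i * aeval z P)
    (f f' : CuspForm (Gamma0 N) k) (hf' : ∀ τ : ℍ, f' τ = ∑ i, c i * f (δ i • τ))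
    {P : ℤ[X]} (hP : P.natDegree ≤ n) (τ : ℍ) :
    eich f' P τ = ∑ i, eich f (polyAct n (A i) P) ↑(δ i • τ) := by
  have hprim : IsNormPrim (fun z => aeval z P * ext f' z)
      (fun z => ∑ i, eich f (polyAct n (A i) P) ((α i : ℂ) * z + β i)) := by
    have h1 := isNormPrim_sum Finset.univ (fun i _ =>
      isNormPrim_comp_affine (eich_spec f (polyAct n (A i) P)) (α i) (β i) (hα i))
    refine h1.congr fun z hz => ?_
    have hext : ext f' z = ∑ i, c i * ext f ((α i : ℂ) * z + β i) := by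
      have h2 := hf' ⟨z, hz⟩
      simp only [← ext_coe, hδ] at h2
      exact h2
    rw [hext, Finset.mul_sum]
    refine Finset.sum_congr rfl fun i _ => ?_
    have h3 := hA i P hP z
    linear_combination (ext f ((α i : ℂ) * z + β i)) * h3
  rw [eich_eq_of_isNormPrim f' P hprim τ.2]
  refine Finset.sum_congr rfl fun i _ => ?_
  rw [hδ]

theorem per_hecke (hk : k = n + 2) (hα : ∀ i, 0 < α i)
    (hδ : ∀ i (τ : ℍ), ((δ i • τ : ℍ) : ℂ) = (α i : ℂ) * τ + β i)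
    (hA : ∀ i (P : ℤ[X]), P.natDegree ≤ n → ∀ z : ℂ,
      (α i : ℂ) * aeval ((α i : ℂ) * z + β i) (polyAct n (A i) P) = c i * aeval z P)
    (hAb : ∀ i, A i 1 0 ≠ 0 ∨ A i 1 1 ≠ 0)
    (f f' : CuspForm (Gamma0 N) k) (hf' : ∀ τ : ℍ, f' τ = ∑ i, c i * f (δ i • τ))
    {γ : SL(2, ℤ)} (σ : Equiv.Perm ι) (γ' : ι → SL(2, ℤ))
    (hγ' : ∀ i, γ' i ∈ Gamma0 N)
    (hmul : ∀ i, δ i * Matrix.SpecialLinearGroup.mapGL ℝ γ
      = Matrix.SpecialLinearGroup.mapGL ℝ (γ' i) * δ (σ i))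
    (hint : ∀ i, A i * (γ' i).1 = γ.1 * A (σ i))
    {P : ℤ[X]} (hP : P.natDegree ≤ n) :
    per n γ P f' = ∑ i, per n (γ' i) (polyAct n (A i) P) f := by
  have hI : Complex.I = ((UpperHalfPlane.I : ℍ) : ℂ) := rfl
  unfold per
  rw [hI, ← coe_smul_eq_mob,
    eich_hecke δ A α β c hα hδ hA f f' hf' hP,
    eich_hecke δ A α β c hα hδ hA f f' hf' (natDegree_polyAct_le n γ.1 P),
    ← Equiv.sum_comp σ (fun i => eich f (polyAct n (A i) (polyAct n γ.1 P))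
      ↑(δ i • (UpperHalfPlane.I : ℍ))),
    ← Finset.sum_sub_distrib]
  refine Finset.sum_congr rfl fun i _ => ?_
  have h1 : δ i • (γ • (UpperHalfPlane.I : ℍ)) = γ' i • (δ (σ i) • (UpperHalfPlane.I : ℍ)) := by
    show δ i • (Matrix.SpecialLinearGroup.mapGL ℝ γ • (UpperHalfPlane.I : ℍ))
      = Matrix.SpecialLinearGroup.mapGL ℝ (γ' i) • (δ (σ i) • (UpperHalfPlane.I : ℍ))
    rw [← mul_smul, ← mul_smul, hmul]
  have h2 : polyAct n (A (σ i)) (polyAct n γ.1 P) = polyAct n (γ' i).1 (polyAct n (A i) P) := by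
    rw [← polyAct_mul n _ _ (hAb _), ← polyAct_mul n _ _ (bottom_ne_zero _), hint]
  rw [h1, coe_smul_eq_mob, h2, ← hI]
  have h3 := per_eq hk (hγ' i) (natDegree_polyAct_le n (A i) P) f
    (δ (σ i) • (UpperHalfPlane.I : ℍ)).2
  rw [h3]
  rfl

theorem periodLattice_stable (hk : k = n + 2) (hα : ∀ i, 0 < α i)
    (hδ : ∀ i (τ : ℍ), ((δ i • τ : ℍ) : ℂ) = (α i : ℂ) * τ + β i)
    (hA : ∀ i (P : ℤ[X]), P.natDegree ≤ n → ∀ z : ℂ,
      (α i : ℂ) * aeval ((α i : ℂ) * z + β i) (polyAct n (A i) P) = c i * aeval z P)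
    (hAb : ∀ i, A i 1 0 ≠ 0 ∨ A i 1 1 ≠ 0)
    (T : Module.End ℂ (CuspForm (Gamma0 N) k))
    (hT : ∀ (f : CuspForm (Gamma0 N) k) (τ : ℍ), (T f) τ = ∑ i, c i * f (δ i • τ))
    (hσ : ∀ γ ∈ Gamma0 N, ∃ (σ : Equiv.Perm ι) (γ' : ι → SL(2, ℤ)), (∀ i, γ' i ∈ Gamma0 N) ∧
      (∀ i, δ i * Matrix.SpecialLinearGroup.mapGL ℝ γ
        = Matrix.SpecialLinearGroup.mapGL ℝ (γ' i) * δ (σ i)) ∧
      (∀ i, A i * (γ' i).1 = γ.1 * A (σ i))) :
    ∀ φ ∈ periodLattice N k n, φ ∘ₗ T ∈ periodLattice N k n := by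
  intro φ hφ
  induction hφ using Submodule.span_induction with
  | mem φ hφ =>
    obtain ⟨γ, hγ, j, hj, rfl⟩ := hφ
    obtain ⟨σ, γ', hγ', hmul, hint⟩ := hσ γ hγ
    have hP : (X ^ j : ℤ[X]).natDegree ≤ n := (natDegree_X_pow_le j).trans hj
    have : perHom N k n γ (X ^ j) ∘ₗ T
        = ∑ i, perHom N k n (γ' i) (polyAct n (A i) (X ^ j)) := by
      ext f
      simp only [LinearMap.comp_apply, perHom_apply, LinearMap.sum_apply]
      exact per_hecke δ A α β c hk hα hδ hA hAb f (T f) (hT f) σ γ' hγ' hmul hint hP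
    rw [this]
    exact Submodule.sum_mem _ fun i _ =>
      perHom_mem_periodLattice (hγ' i) (natDegree_polyAct_le _ _ _)
  | zero => simp
  | add φ ψ _ _ hφ hψ =>
    rw [LinearMap.add_comp]
    exact add_mem hφ hψ
  | smul m φ _ hφ =>
    rw [LinearMap.smul_comp]
    exact Submodule.smul_mem _ m hφ

end abstractHecke

theorem int_identity_of_real {D D' : Matrix (Fin 2) (Fin 2) ℝ}
    {A A' g g' : Matrix (Fin 2) (Fin 2) ℤ} {d : ℝ} (hd : d ≠ 0)
    (hA : A.map (Int.castRingHom ℝ) * D = d • (1 : Matrix (Fin 2) (Fin 2) ℝ))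
    (hA' : D' * A'.map (Int.castRingHom ℝ) = d • (1 : Matrix (Fin 2) (Fin 2) ℝ))
    (h : D * g.map (Int.castRingHom ℝ) = g'.map (Int.castRingHom ℝ) * D') :
    A * g' = g * A' := by
  have h2 : d • (g.map (Int.castRingHom ℝ) * A'.map (Int.castRingHom ℝ))
      = d • (A.map (Int.castRingHom ℝ) * g'.map (Int.castRingHom ℝ)) := by
    calc d • (g.map (Int.castRingHom ℝ) * A'.map (Int.castRingHom ℝ))
        = (d • (1 : Matrix (Fin 2) (Fin 2) ℝ)) * g.map (Int.castRingHom ℝ)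
            * A'.map (Int.castRingHom ℝ) := by simp
      _ = A.map (Int.castRingHom ℝ) * (D * g.map (Int.castRingHom ℝ))
            * A'.map (Int.castRingHom ℝ) := by rw [← hA]; simp only [Matrix.mul_assoc]
      _ = A.map (Int.castRingHom ℝ) * g'.map (Int.castRingHom ℝ)
            * (D' * A'.map (Int.castRingHom ℝ)) := by rw [h]; simp only [Matrix.mul_assoc]
      _ = d • (A.map (Int.castRingHom ℝ) * g'.map (Int.castRingHom ℝ)) := by
          rw [hA']; simp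
  have h3 := smul_right_injective _ hd h2
  apply Matrix.map_injective (Int.castRingHom ℝ).injective_int
  beta_reduce
  rw [Matrix.map_mul, Matrix.map_mul]
  exact h3.symm

theorem coe_mapGL (γ : SL(2, ℤ)) :
    ((Matrix.SpecialLinearGroup.mapGL ℝ γ : GL (Fin 2) ℝ) : Matrix (Fin 2) (Fin 2) ℝ)
      = γ.1.map (Int.castRingHom ℝ) := by
  ext i j
  simp

/-- adjugate of `heckeMatrix q j`. -/
def adjM (q j : ℕ) : Matrix (Fin 2) (Fin 2) ℤ := !![(q : ℤ), -(j : ℤ); 0, 1]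

/-- adjugate of `heckeDiagMatrix q`. -/
def adjD (q : ℕ) : Matrix (Fin 2) (Fin 2) ℤ := !![1, 0; 0, (q : ℤ)]

theorem adjM_mul_heckeMatrix {q : ℕ} (hq : q ≠ 0) (j : ℕ) :
    (adjM q j).map (Int.castRingHom ℝ) *
      ((heckeMatrix q j : GL (Fin 2) ℝ) : Matrix (Fin 2) (Fin 2) ℝ)
      = (q : ℝ) • (1 : Matrix (Fin 2) (Fin 2) ℝ) := by
  rw [val_heckeMatrix hq]
  ext a b
  fin_cases a <;> fin_cases b <;> simp [adjM, Matrix.mul_apply, Fin.sum_univ_two, mul_comm]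

theorem heckeMatrix_mul_adjM {q : ℕ} (hq : q ≠ 0) (j : ℕ) :
    ((heckeMatrix q j : GL (Fin 2) ℝ) : Matrix (Fin 2) (Fin 2) ℝ) *
      (adjM q j).map (Int.castRingHom ℝ)
      = (q : ℝ) • (1 : Matrix (Fin 2) (Fin 2) ℝ) := by
  rw [val_heckeMatrix hq]
  ext a b
  fin_cases a <;> fin_cases b <;> simp [adjM, Matrix.mul_apply, Fin.sum_univ_two, mul_comm]

theorem adjD_mul_heckeDiagMatrix {q : ℕ} (hq : q ≠ 0) :
    (adjD q).map (Int.castRingHom ℝ) *
      ((heckeDiagMatrix q : GL (Fin 2) ℝ) : Matrix (Fin 2) (Fin 2) ℝ)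
      = (q : ℝ) • (1 : Matrix (Fin 2) (Fin 2) ℝ) := by
  rw [val_heckeDiagMatrix hq]
  ext a b
  fin_cases a <;> fin_cases b <;> simp [adjD, Matrix.mul_apply, Fin.sum_univ_two]

theorem heckeDiagMatrix_mul_adjD {q : ℕ} (hq : q ≠ 0) :
    ((heckeDiagMatrix q : GL (Fin 2) ℝ) : Matrix (Fin 2) (Fin 2) ℝ) *
      (adjD q).map (Int.castRingHom ℝ)
      = (q : ℝ) • (1 : Matrix (Fin 2) (Fin 2) ℝ) := by
  rw [val_heckeDiagMatrix hq]
  ext a b
  fin_cases a <;> fin_cases b <;> simp [adjD, Matrix.mul_apply, Fin.sum_univ_two]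

theorem aeval_adjM {n : ℕ} {q : ℕ} (hq : q ≠ 0) (j : ℕ) {P : ℤ[X]} (hP : P.natDegree ≤ n)
    (z : ℂ) :
    (((q : ℝ)⁻¹ : ℝ) : ℂ) *
      aeval ((((q : ℝ)⁻¹ : ℝ) : ℂ) * z + (((j : ℝ) / q : ℝ) : ℂ)) (polyAct n (adjM q j) P)
      = (q : ℂ)⁻¹ * aeval z P := by
  have hq' : (q : ℂ) ≠ 0 := by exact_mod_cast hq
  have hw : ((adjM q j 1 0 : ℤ) : ℂ) * ((((q : ℝ)⁻¹ : ℝ) : ℂ) * z + (((j : ℝ) / q : ℝ) : ℂ))
      + ((adjM q j 1 1 : ℤ) : ℂ) ≠ 0 := by
    simp [adjM]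
  rw [aeval_polyAct n (adjM q j) hP _ hw]
  have h1 : ((adjM q j 1 0 : ℤ) : ℂ) * ((((q : ℝ)⁻¹ : ℝ) : ℂ) * z + (((j : ℝ) / q : ℝ) : ℂ))
      + ((adjM q j 1 1 : ℤ) : ℂ) = 1 := by
    simp [adjM]
  have h2 : (((adjM q j 0 0 : ℤ) : ℂ) * ((((q : ℝ)⁻¹ : ℝ) : ℂ) * z + (((j : ℝ) / q : ℝ) : ℂ))
      + ((adjM q j 0 1 : ℤ) : ℂ)) = z := by
    simp [adjM]
    field_simp
    ring
  rw [h1, h2]
  simp

theorem aeval_adjD {n : ℕ} {q : ℕ} (hq : q ≠ 0) {P : ℤ[X]} (hP : P.natDegree ≤ n)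
    (z : ℂ) :
    (((q : ℝ) : ℝ) : ℂ) *
      aeval ((((q : ℝ) : ℝ) : ℂ) * z + (((0 : ℝ) : ℝ) : ℂ)) (polyAct n (adjD q) P)
      = (q : ℂ) ^ (n + 1) * aeval z P := by
  have hq' : (q : ℂ) ≠ 0 := by exact_mod_cast hq
  have h1 : ((adjD q 1 0 : ℤ) : ℂ) * ((((q : ℝ) : ℝ) : ℂ) * z + (((0 : ℝ) : ℝ) : ℂ))
      + ((adjD q 1 1 : ℤ) : ℂ) = q := by
    simp [adjD]
  have hw : ((adjD q 1 0 : ℤ) : ℂ) * ((((q : ℝ) : ℝ) : ℂ) * z + (((0 : ℝ) : ℝ) : ℂ))
      + ((adjD q 1 1 : ℤ) : ℂ) ≠ 0 := by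
    rw [h1]; exact hq'
  rw [aeval_polyAct n (adjD q) hP _ hw]
  have h2 : (((adjD q 0 0 : ℤ) : ℂ) * ((((q : ℝ) : ℝ) : ℂ) * z + (((0 : ℝ) : ℝ) : ℂ))
      + ((adjD q 0 1 : ℤ) : ℂ)) = q * z := by
    simp [adjD]
  rw [h1, h2, mul_div_cancel_left₀ _ hq']
  push_cast
  ring


theorem dvd_of_mem_Gamma0 {γ : SL(2, ℤ)} (hγ : γ ∈ Gamma0 N) : (N : ℤ) ∣ γ 1 0 :=
  (ZMod.intCast_zmod_eq_zero_iff_dvd _ _).mp (Gamma0_mem.mp hγ)

theorem mem_Gamma0_of_dvd {γ : SL(2, ℤ)} (h : (N : ℤ) ∣ γ 1 0) : γ ∈ Gamma0 N :=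
  Gamma0_mem.mpr ((ZMod.intCast_zmod_eq_zero_iff_dvd _ _).mpr h)

theorem coe_mul_eq {D D' : GL (Fin 2) ℝ} {γ γ' : SL(2, ℤ)}
    (h : D * Matrix.SpecialLinearGroup.mapGL ℝ γ = Matrix.SpecialLinearGroup.mapGL ℝ γ' * D') :
    (D : Matrix (Fin 2) (Fin 2) ℝ) * γ.1.map (Int.castRingHom ℝ)
      = γ'.1.map (Int.castRingHom ℝ) * (D' : Matrix (Fin 2) (Fin 2) ℝ) := by
  have h1 := congrArg (fun g : GL (Fin 2) ℝ => (g : Matrix (Fin 2) (Fin 2) ℝ)) h
  simp only [Matrix.GeneralLinearGroup.coe_mul, coe_mapGL] at h1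
  exact h1

/-- adjugates of the Hecke representatives -/
def adjRep (p : ℕ) (x : OnePoint (ZMod p)) : Matrix (Fin 2) (Fin 2) ℤ :=
  x.elim (adjD p) (fun j => adjM p j.val)

theorem adjRep_mul_heckeRep {p : ℕ} (hp : p ≠ 0) (x : OnePoint (ZMod p)) :
    (adjRep p x).map (Int.castRingHom ℝ) *
      ((heckeRep p x : GL (Fin 2) ℝ) : Matrix (Fin 2) (Fin 2) ℝ)
      = (p : ℝ) • (1 : Matrix (Fin 2) (Fin 2) ℝ) := by
  induction x using OnePoint.rec with
  | infty => exact adjD_mul_heckeDiagMatrix hp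
  | coe j => exact adjM_mul_heckeMatrix hp j.val

theorem heckeRep_mul_adjRep {p : ℕ} (hp : p ≠ 0) (x : OnePoint (ZMod p)) :
    ((heckeRep p x : GL (Fin 2) ℝ) : Matrix (Fin 2) (Fin 2) ℝ) *
      (adjRep p x).map (Int.castRingHom ℝ)
      = (p : ℝ) • (1 : Matrix (Fin 2) (Fin 2) ℝ) := by
  induction x using OnePoint.rec with
  | infty => exact heckeDiagMatrix_mul_adjD hp
  | coe j => exact heckeMatrix_mul_adjM hp j.val

theorem periodLattice_stable_heckeT {p : ℕ} (hp : p.Prime) (hpN : ¬ p ∣ N) {n : ℕ}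
    (hk : k = n + 2) :
    ∀ φ ∈ periodLattice N k n, φ ∘ₗ CuspForm.heckeTLin k hp hpN ∈ periodLattice N k n := by
  have hp0 : p ≠ 0 := hp.ne_zero
  have : NeZero p := ⟨hp0⟩
  have : Fact p.Prime := ⟨hp⟩
  have hpR : (p : ℝ) ≠ 0 := by exact_mod_cast hp0
  have hpC : (p : ℂ) ≠ 0 := by exact_mod_cast hp0
  have hpos : (0 : ℝ) < p := by exact_mod_cast hp.pos
  refine periodLattice_stable (ι := OnePoint (ZMod p)) (heckeRep p) (adjRep p)
    (fun x => x.elim (p : ℝ) (fun _ => (p : ℝ)⁻¹))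
    (fun x => x.elim (0 : ℝ) (fun j => (j.val : ℝ) / p))
    (fun x => x.elim ((p : ℂ) ^ (n + 1)) (fun _ => (p : ℂ)⁻¹))
    hk ?_ ?_ ?_ ?_ _ ?_ ?_
  · intro x
    induction x using OnePoint.rec with
    | infty => simpa using hpos
    | coe j => simpa using hpos
  · intro x τ
    induction x using OnePoint.rec with
    | infty =>
      rw [heckeRep_infty, coe_heckeDiagMatrix_smul hp0]
      simp
    | coe j =>
      rw [heckeRep_coe, coe_heckeMatrix_smul hp0]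
      simp only [OnePoint.elim_some]
      push_cast
      field_simp
  · intro x P hP z
    induction x using OnePoint.rec with
    | infty => exact aeval_adjD hp0 hP z
    | coe j => exact aeval_adjM hp0 j.val hP z
  · intro x
    right
    induction x using OnePoint.rec with
    | infty => simpa [adjRep, adjD] using hp0
    | coe j => simp [adjRep, adjM]
  · intro f τ
    have hsum := Fintype.sum_option (fun x : OnePoint (ZMod p) =>
      (x.elim ((p : ℂ) ^ (n + 1)) fun _ => (p : ℂ)⁻¹) * f (heckeRep p x • τ))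
    refine Eq.trans ?_ hsum.symm
    rw [CuspForm.heckeTLin_apply_apply, heckeT_apply k hp0,
      sum_range_eq_sum_zmod, Finset.mul_sum, add_comm]
    congr 1
    subst hk
    show _ = (p : ℂ) ^ (n + 1) * f (heckeDiagMatrix p • τ)
    congr 1
    rw [show ((n : ℤ) + 2 - 1) = ((n + 1 : ℕ) : ℤ) by push_cast; ring, zpow_natCast]
  · intro γ hγ
    choose γ' h1 h2 using heckeRep_mul hpN γ (dvd_of_mem_Gamma0 hγ)
    refine ⟨MulAction.toPerm (redMatrix p γ), γ', fun x => mem_Gamma0_of_dvd (h1 x), h2,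
      fun x => ?_⟩
    exact int_identity_of_real hpR (adjRep_mul_heckeRep hp0 _) (heckeRep_mul_adjRep hp0 _)
        (coe_mul_eq (h2 x))

theorem periodLattice_stable_heckeU [NeZero N] {q : ℕ} (hqN : q ∣ N) {n : ℕ} (hk : k = n + 2) :
    ∀ φ ∈ periodLattice N k n, φ ∘ₗ CuspForm.heckeULin k hqN ∈ periodLattice N k n := by
  have hq : q ≠ 0 := by
    rintro rfl
    exact NeZero.ne N (Nat.eq_zero_of_zero_dvd hqN)
  have : NeZero q := ⟨hq⟩
  have hqR : (q : ℝ) ≠ 0 := by exact_mod_cast hq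
  have hqC : (q : ℂ) ≠ 0 := by exact_mod_cast hq
  refine periodLattice_stable (ι := ZMod q) (fun j => heckeMatrix q j.val)
    (fun j => adjM q j.val) (fun _ => (q : ℝ)⁻¹) (fun j => (j.val : ℝ) / q) (fun _ => (q : ℂ)⁻¹)
    hk (fun _ => inv_pos.mpr (by positivity)) ?_ ?_ ?_ _ ?_ ?_
  · intro j τ
    rw [coe_heckeMatrix_smul hq]
    push_cast
    field_simp
  · intro j P hP z
    exact aeval_adjM hq j.val hP z
  · intro j
    right
    simp [adjM]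
  · intro f τ
    rw [CuspForm.heckeULin_apply_apply, heckeU_apply k hq, sum_range_eq_sum_zmod, Finset.mul_sum]
  · intro γ hγ
    have hcN := dvd_of_mem_Gamma0 hγ
    have hc : (q : ℤ) ∣ γ 1 0 := (Int.natCast_dvd_natCast.mpr hqN).trans hcN
    have hc0 : ((γ 1 0 : ℤ) : ZMod q) = 0 := (ZMod.intCast_zmod_eq_zero_iff_dvd _ _).mpr hc
    choose γ' h1 h2 using heckeMatrix_mul_of_dvd γ hc
    refine ⟨affinePerm γ hc0, γ', fun j => ?_, h2, fun j => ?_⟩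
    · apply mem_Gamma0_of_dvd
      rw [h1 j]
      exact Dvd.dvd.mul_left hcN _
    · exact int_identity_of_real hqR (adjM_mul_heckeMatrix hq _) (heckeMatrix_mul_adjM hq _)
        (coe_mul_eq (h2 j))

end Fermat.Agent.S22.HeckeStable
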