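/-
S22, slice (D) SEPARATION: shared definition for `Separation.lean` (helper6) and
`SeparationCusps.lean` (helper20).

`eichlerH m f` is the Eichler integral (weight `m + 2`) of a function `f : ℍ → ℂ`, regarded as a
function on the upper half plane; it is built from `Primitive.eichler`.
-/
import Mathlib
import Fermat.Agent.S22.Primitive

set_option autoImplicit false

open UpperHalfPlane

namespace Fermat.Agent.S22.Separation

/-- The Eichler integral of a function `f : ℍ → ℂ` (thought of as a cusp form of weight `m + 2`),
as a function on the upper half plane: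
`eichlerH m f z = eichler m (f ∘ ofComplex) z = prim (f ∘ ofComplex) ((X - C z) ^ m) z`. -/
noncomputable def eichlerH (m : ℕ) (f : ℍ → ℂ) (z : ℍ) : ℂ :=
  Primitive.eichler m (f ∘ UpperHalfPlane.ofComplex) (z : ℂ)

theorem eichlerH_apply (m : ℕ) (f : ℍ → ℂ) (z : ℍ) :
    eichlerH m f z = Primitive.eichler m (f ∘ UpperHalfPlane.ofComplex) (z : ℂ) := rfl

theorem eichlerH_comp_ofComplex (m : ℕ) (f : ℍ → ℂ) {z : ℂ} (hz : 0 < z.im) :
    (eichlerH m f ∘ UpperHalfPlane.ofComplex) z =
      Primitive.eichler m (f ∘ UpperHalfPlane.ofComplex) z := by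
  simp only [Function.comp_apply, eichlerH_apply, UpperHalfPlane.ofComplex_apply_of_im_pos hz]

end Fermat.Agent.S22.Separation
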