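/-
S22, slice (D) SEPARATION (helper6).

If all the periods of a cusp form `f` of weight `k = n + 2` and level `Γ₀(N)` vanish, then `f = 0`.

Strategy: the Eichler integral `G = eichlerH n f` is holomorphic; by the vanishing of the periods
it is slash-invariant of weight `-n` under `Γ₀(N)` (binomial identity
`((aX + b) - w (cX + d))^n = (cz + d)^(-n) (X - z)^n` for `w = (az + b)/(cz + d)`); at every cusp it
is "cusp-like plus polynomial" (`SeparationCusps.lean`, helper20), hence it is a modular form of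
weight `-n ≤ 0`, so constant (`CuspBound.lean`, helper23), so `f = 0`
(`Primitive.eq_zero_of_eichler_eq_const`).
-/
import Mathlib
import Fermat.Prelude.Thm_CongruenceSubgroup_one_mem_strictPeriods_Gamma0
import Fermat.Agent.S22.Primitive
import Fermat.Agent.S22.Period
import Fermat.Agent.S22.CuspBound
import Fermat.Agent.S22.SeparationDefs

set_option autoImplicit false

open UpperHalfPlane CongruenceSubgroup Polynomial
open scoped MatrixGroups ModularForm Manifold

namespace Fermat.Agent.S22.Separation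

open Fermat.Agent.S22.Primitive

/-- Linearity of `prim g · z` over finite sums. -/
theorem prim_sum_poly {h : ℝ} (hh : 0 < h) {g : ℂ → ℂ} (hg : CuspLike h g) {ι : Type*}
    (s : Finset ι) (c : ι → ℂ) (P : ι → ℂ[X]) {z : ℂ} (hz : 0 < z.im) :
    prim g (∑ j ∈ s, C (c j) * P j) z = ∑ j ∈ s, c j * prim g (P j) z := by
  classical
  induction s using Finset.induction_on with
  | empty => simpa using prim_zero_poly hh hg hz
  | insert a s ha ih =>
    rw [Finset.sum_insert ha, Finset.sum_insert ha, prim_add_poly hh hg _ _ hz, ih,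
      prim_C_mul_poly hh hg _ _ hz]

/-- The polynomial identity behind the modularity of the Eichler integral. -/
theorem poly_identity (m : ℕ) (a b c d z : ℂ) (hdet : a * d - b * c = 1) (hden : c * z + d ≠ 0) :
    ∑ j ∈ Finset.range (m + 1),
      C ((m.choose j : ℂ) * (-((a * z + b) / (c * z + d))) ^ (m - j)) *
        ((C a * X + C b) ^ j * (C c * X + C d) ^ (m - j)) =
    C (((c * z + d) ^ m)⁻¹) * (X - C z) ^ m := by
  set w : ℂ := (a * z + b) / (c * z + d) with hw
  have h1 : (C a * X + C b) + C (-w) * (C c * X + C d) = C ((c * z + d)⁻¹) * (X - C z) := by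
    have hwm : w * (c * z + d) = a * z + b := div_mul_cancel₀ _ hden
    have e1 : a - w * c = (c * z + d)⁻¹ :=
      eq_inv_of_mul_eq_one_left (by linear_combination hdet - c * hwm)
    have e2 : b - w * d = -((c * z + d)⁻¹ * z) := by
      have : (b - w * d) * (c * z + d) = -z := by linear_combination (-z) * hdet - d * hwm
      rw [eq_mul_inv_iff_mul_eq₀ hden |>.mpr this]; ring
    calc (C a * X + C b) + C (-w) * (C c * X + C d)
        = C (a - w * c) * X + C (b - w * d) := by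
          simp only [C_sub, C_mul, C_neg]; ring
      _ = C ((c * z + d)⁻¹) * (X - C z) := by
          rw [e1, e2]; simp only [C_neg, C_mul]; ring
  have h2 := add_pow (C a * X + C b) (C (-w) * (C c * X + C d)) m
  rw [h1, mul_pow, ← C_pow, inv_pow] at h2
  rw [h2]
  refine Finset.sum_congr rfl fun j _ => ?_
  rw [mul_pow, ← C_pow, C_mul, ← C_eq_natCast]
  ring

/-- Modularity of the Eichler integral at one point, from the vanishing of the periods. -/
theorem eichler_mobius {h : ℝ} (hh : 0 < h) {g : ℂ → ℂ} (hg : CuspLike h g) (m : ℕ)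
    (a b c d : ℂ) (hdet : a * d - b * c = 1) {z : ℂ} (hz : 0 < z.im) (hden : c * z + d ≠ 0)
    (hper : ∀ j ≤ m, prim g (X ^ j) ((a * z + b) / (c * z + d)) =
      prim g ((C a * X + C b) ^ j * (C c * X + C d) ^ (m - j)) z) :
    eichler m g ((a * z + b) / (c * z + d)) = ((c * z + d) ^ m)⁻¹ * eichler m g z := by
  rw [eichler_eq_prim hh hg m hz, ← prim_C_mul_poly hh hg _ _ hz,
    ← poly_identity m a b c d z hdet hden, prim_sum_poly hh hg _ _ _ hz]
  unfold eichler
  refine Finset.sum_congr rfl fun j hj => ?_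
  rw [hper j (Nat.lt_succ_iff.mp (Finset.mem_range.mp hj))]

/-- The vanishing of all the periods of `g` (weight `m + 2`, level `Γ₀(N)`), phrased with the
normalised primitives of `Primitive.lean`. -/
def PeriodsVanish (N m : ℕ) (g : ℂ → ℂ) : Prop :=
  ∀ γ ∈ Gamma0 N, ∀ j ≤ m, ∀ z : ℂ, 0 < z.im →
    prim g (X ^ j) ((((γ 0 0 : ℤ) : ℂ) * z + ((γ 0 1 : ℤ) : ℂ)) /
        (((γ 1 0 : ℤ) : ℂ) * z + ((γ 1 1 : ℤ) : ℂ))) =
      prim g ((C ((γ 0 0 : ℤ) : ℂ) * X + C ((γ 0 1 : ℤ) : ℂ)) ^ j *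
        (C ((γ 1 0 : ℤ) : ℂ) * X + C ((γ 1 1 : ℤ) : ℂ)) ^ (m - j)) z

theorem coe_smul_eq (γ : SL(2, ℤ)) (z : ℍ) :
    ((γ • z : ℍ) : ℂ) = (((γ 0 0 : ℤ) : ℂ) * z + ((γ 0 1 : ℤ) : ℂ)) /
        (((γ 1 0 : ℤ) : ℂ) * z + ((γ 1 1 : ℤ) : ℂ)) := by
  rw [UpperHalfPlane.coe_specialLinearGroup_apply]
  simp

theorem denom_eq (γ : SL(2, ℤ)) (z : ℍ) :
    denom γ z = ((γ 1 0 : ℤ) : ℂ) * z + ((γ 1 1 : ℤ) : ℂ) := by
  rw [ModularGroup.denom_apply]

theorem det_eq (γ : SL(2, ℤ)) :
    ((γ 0 0 : ℤ) : ℂ) * ((γ 1 1 : ℤ) : ℂ) - ((γ 0 1 : ℤ) : ℂ) * ((γ 1 0 : ℤ) : ℂ) = 1 := by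
  have h := γ.det_coe
  rw [Matrix.det_fin_two] at h
  exact_mod_cast h

theorem cuspLike_Gamma0 {N : ℕ} {k : ℤ} (f : CuspForm (Gamma0 N) k) :
    CuspLike 1 (f ∘ UpperHalfPlane.ofComplex) :=
  cuspLike_of_cuspFormClass f one_pos (CongruenceSubgroup.one_mem_strictPeriods_Gamma0 N)

/-- Slash invariance (weight `-m`) of the Eichler integral under `Γ₀(N)`, if all periods vanish. -/
theorem eichlerH_slash_eq {N : ℕ} (m : ℕ) {k : ℤ} (f : CuspForm (Gamma0 N) k)
    (hper : PeriodsVanish N m (f ∘ UpperHalfPlane.ofComplex)) (γ : SL(2, ℤ)) (hγ : γ ∈ Gamma0 N) :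
    eichlerH m f ∣[-(m : ℤ)] γ = eichlerH m f := by
  funext z
  have hz : 0 < (z : ℂ).im := z.im_pos
  have hden : ((γ 1 0 : ℤ) : ℂ) * z + ((γ 1 1 : ℤ) : ℂ) ≠ 0 := by
    rw [← denom_eq]; exact denom_ne_zero _ z
  rw [ModularForm.SL_slash_apply, neg_neg, zpow_natCast, eichlerH_apply, eichlerH_apply,
    coe_smul_eq, denom_eq,
    eichler_mobius one_pos (cuspLike_Gamma0 f) m _ _ _ _ (det_eq γ) hz hden
      (fun j hj => hper γ hγ j hj z hz), mul_comm, ← mul_assoc, mul_inv_cancel₀ (pow_ne_zero m hden),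
    one_mul]

/-- The same, for the image of `Γ₀(N)` in `GL(2, ℝ)`. -/
theorem eichlerH_slash_eq_GL {N : ℕ} (m : ℕ) {k : ℤ} (f : CuspForm (Gamma0 N) k)
    (hper : PeriodsVanish N m (f ∘ UpperHalfPlane.ofComplex)) :
    ∀ γ ∈ (Gamma0 N : Subgroup (GL (Fin 2) ℝ)), eichlerH m f ∣[-(m : ℤ)] γ = eichlerH m f := by
  rintro _ ⟨γ, hγ, rfl⟩
  exact eichlerH_slash_eq m f hper γ hγ

theorem eichler_differentiableAt {h : ℝ} (hh : 0 < h) {g : ℂ → ℂ} (hg : CuspLike h g) (m : ℕ)
    {z : ℂ} (hz : 0 < z.im) : DifferentiableAt ℂ (eichler m g) z := by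
  cases m with
  | zero => exact (eichler_zero_hasDerivAt hh hg hz).differentiableAt
  | succ m => exact (eichler_succ_hasDerivAt hh hg m hz).differentiableAt

/-- The Eichler integral is holomorphic on the upper half plane. -/
theorem mdifferentiable_eichlerH {N : ℕ} (m : ℕ) {k : ℤ} (f : CuspForm (Gamma0 N) k) :
    MDifferentiable 𝓘(ℂ) 𝓘(ℂ) (eichlerH m f) := by
  rw [UpperHalfPlane.mdifferentiable_iff]
  intro z hz
  have h1 := eichler_differentiableAt one_pos (cuspLike_Gamma0 f) m hz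
  refine (h1.congr_of_eventuallyEq ?_).differentiableWithinAt
  filter_upwards [isOpen_U.mem_nhds hz] with w hw
  exact eichlerH_comp_ofComplex m f hw

/-- Separation, with the expansion at the cusps as a hypothesis. -/
theorem eq_zero_of_periodsVanish_of_expansions {N : ℕ} [NeZero N] (m : ℕ) {k : ℤ}
    (f : CuspForm (Gamma0 N) k)
    (hper : PeriodsVanish N m (f ∘ UpperHalfPlane.ofComplex))
    (hexp : ∀ σ : SL(2, ℤ), ∃ (h : ℝ) (E : ℂ → ℂ) (p : Polynomial ℂ), 0 < h ∧ CuspLike h E ∧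
      ∀ z : ℍ, (eichlerH m f ∣[-(m : ℤ)] (Matrix.SpecialLinearGroup.mapGL ℝ σ)) z =
        E (z : ℂ) + p.eval (z : ℂ)) : f = 0 := by
  obtain ⟨c, hc, -⟩ := CuspBound.eq_const_of_cusp_expansions (N := N) (k := -(m : ℤ))
    (by simp) (eichlerH m f) (mdifferentiable_eichlerH m f) (eichlerH_slash_eq_GL m f hper) hexp
  have hzero := eq_zero_of_eichler_eq_const one_pos (cuspLike_Gamma0 f) m c
    (fun z hz => by
      have := hc ⟨z, hz⟩
      rwa [eichlerH_apply] at this)
  ext z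
  have := hzero z z.im_pos
  simpa using this

/-- The polynomial `polyAct n γ (X ^ j)`, over `ℂ`. -/
theorem toC_polyAct_X_pow (n : ℕ) (g : Matrix (Fin 2) (Fin 2) ℤ) {j : ℕ} (hj : j ≤ n) :
    Period.toC (polyAct n g (X ^ j)) =
      (C ((g 0 0 : ℤ) : ℂ) * X + C ((g 0 1 : ℤ) : ℂ)) ^ j *
        (C ((g 1 0 : ℤ) : ℂ) * X + C ((g 1 1 : ℤ) : ℂ)) ^ (n - j) := by
  unfold polyAct Period.toC
  rw [Finset.sum_eq_single j]
  · simp
  · intro i _ hij
    rw [coeff_X_pow, if_neg hij]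
    simp
  · intro hjn
    exact absurd (Finset.mem_range.mpr (Nat.lt_succ_of_le hj)) hjn

/-- Vanishing on the period lattice gives `PeriodsVanish`. -/
theorem periodsVanish_of_periodLattice {N : ℕ} {k : ℤ} {n : ℕ} (hk : k = n + 2)
    (f : CuspForm (Gamma0 N) k) (h : ∀ φ ∈ Period.periodLattice N k n, φ f = 0) :
    PeriodsVanish N n (f ∘ UpperHalfPlane.ofComplex) := by
  intro γ hγ j hj z hz
  have hdeg : (X ^ j : ℤ[X]).natDegree ≤ n := (natDegree_X_pow_le j).trans hj
  have h1 := Period.per_eq hk hγ hdeg f hz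
  have h2 : Period.per n γ (X ^ j) f = 0 :=
    h _ (Period.perHom_mem_periodLattice (k := k) hγ hdeg)
  rw [h2, sub_eq_zero] at h1
  simp only [Period.eich, toC_polyAct_X_pow n γ.1 hj] at h1
  have e : Period.toC (X ^ j) = X ^ j := by simp [Period.toC]
  rw [e] at h1
  exact h1

/-- Separation for the period lattice, with the expansion at the cusps as a hypothesis
(the hypothesis is discharged in `SeparationFinal.lean` from `SeparationCusps.lean`). -/
theorem separation_of_expansions {N : ℕ} [NeZero N] {k : ℤ} {n : ℕ} (hk : k = n + 2)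
    (f : CuspForm (Gamma0 N) k)
    (hexp : ∀ σ : SL(2, ℤ), ∃ (h : ℝ) (E : ℂ → ℂ) (p : Polynomial ℂ), 0 < h ∧ CuspLike h E ∧
      ∀ z : ℍ, (eichlerH n f ∣[-(n : ℤ)] (Matrix.SpecialLinearGroup.mapGL ℝ σ)) z =
        E (z : ℂ) + p.eval (z : ℂ))
    (h : ∀ φ ∈ Period.periodLattice N k n, φ f = 0) : f = 0 :=
  eq_zero_of_periodsVanish_of_expansions n f (periodsVanish_of_periodLattice hk f h) hexp

end Fermat.Agent.S22.Separation
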