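import Mathlib
import Fermat.Agent.S22.Primitive
import Fermat.Prelude.Thm_Subgroup_IsArithmetic_exists_nat_mem_strictPeriods_conj
import Fermat.Prelude.Thm_CongruenceSubgroup_one_mem_strictPeriods_Gamma0

/-!
# Expansion of the Eichler integral at an arbitrary cusp

For a cusp-like `g` and a real Möbius transformation `σ` of determinant one such that the
weight `m + 2` transform `g'` of `g` is again cusp-like, the weight `-m` transform of the Eichler
integral of `g` is the Eichler integral of `g'` plus a polynomial (the period polynomial).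
-/

set_option autoImplicit false

noncomputable section

namespace Fermat.Agent.S22.SeparationCusps

open Complex Filter Topology Function Polynomial
open Fermat.Agent.S22.Primitive

section analysis

theorem prim_sum_poly {h : ℝ} (hh : 0 < h) {g : ℂ → ℂ} (hg : CuspLike h g) {ι : Type*}
    (s : Finset ι) (P : ι → ℂ[X]) {z : ℂ} (hz : 0 < z.im) :
    prim g (∑ i ∈ s, P i) z = ∑ i ∈ s, prim g (P i) z := by
  classical
  induction s using Finset.induction_on with
  | empty => simpa using prim_zero_poly hh hg hz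
  | insert a s ha ih =>
    rw [Finset.sum_insert ha, Finset.sum_insert ha, prim_add_poly hh hg _ _ hz, ih]

theorem X_sub_C_eq_mobius (a b c d : ℝ) (hdet : a * d - b * c = 1) (z : ℂ) :
    (X - C z : ℂ[X]) = C ((c : ℂ) * z + d) * (C (a : ℂ) * X + C (b : ℂ)) +
      C (-((a : ℂ) * z + b)) * (C (c : ℂ) * X + C (d : ℂ)) := by
  have hdet' : (a : ℂ) * d - b * c = 1 := by exact_mod_cast hdet
  have h1 : (C ((a : ℂ) * d - b * c) : ℂ[X]) = 1 := by rw [hdet']; simp
  simp only [C_add, C_mul, C_neg, C_sub] at h1 ⊢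
  linear_combination (C z - X) * h1

theorem eichler_mobius_expansion {h h' : ℝ} (hh : 0 < h) (hh' : 0 < h') {g g' : ℂ → ℂ}
    (hg : CuspLike h g) (hg' : CuspLike h' g') (m : ℕ) (a b c d : ℝ)
    (hdet : a * d - b * c = 1)
    (hrel : ∀ z : ℂ, 0 < z.im → g' z =
      ((((c : ℂ) * z + d) ^ (m + 2))⁻¹) * g (((a : ℂ) * z + b) / ((c : ℂ) * z + d))) :
    ∃ p : ℂ[X], ∀ z : ℂ, 0 < z.im →
      ((c : ℂ) * z + d) ^ m * eichler m g (((a : ℂ) * z + b) / ((c : ℂ) * z + d)) =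
        eichler m g' z + p.eval z := by
  set Q : ℕ → ℂ[X] := fun j =>
    (C (a : ℂ) * X + C (b : ℂ)) ^ j * (C (c : ℂ) * X + C (d : ℂ)) ^ (m - j) with hQ
  have hcd : c ≠ 0 ∨ d ≠ 0 := by
    by_contra hcon
    rw [not_or, not_not, not_not] at hcon
    rw [hcon.1, hcon.2] at hdet
    norm_num at hdet
  have hconst : ∀ j : ℕ, ∃ K : ℂ, j ≤ m → ∀ z : ℂ, 0 < z.im →
      prim g (X ^ j) (((a : ℂ) * z + b) / ((c : ℂ) * z + d)) - prim g' (Q j) z = K := by
    intro j
    by_cases hj : j ≤ m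
    · have hPQ : ∀ z : ℂ, 0 < z.im → (Q j).eval z * g' z =
          (X ^ j : ℂ[X]).eval (((a : ℂ) * z + b) / ((c : ℂ) * z + d)) *
            g (((a : ℂ) * z + b) / ((c : ℂ) * z + d)) * ((((c : ℂ) * z + d) ^ 2)⁻¹) := by
        intro z hz
        have hD := mobius_den_ne_zero c d hcd hz
        rw [hrel z hz]
        simp only [hQ, eval_mul, eval_pow, eval_add, eval_C, eval_X]
        have hp : ((c : ℂ) * z + d) ^ (m + 2) =
            ((c : ℂ) * z + d) ^ (m - j) * ((c : ℂ) * z + d) ^ j * ((c : ℂ) * z + d) ^ 2 := by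
          rw [← pow_add, ← pow_add]; congr 1; omega
        rw [hp, div_pow]
        generalize g (((a : ℂ) * z + b) / ((c : ℂ) * z + d)) = G
        generalize (c : ℂ) * z + d = D at hD ⊢
        generalize (a : ℂ) * z + b = w
        field_simp
      obtain ⟨K, hK⟩ := prim_mobius_sub_const hh hh' hg hg' (X ^ j) (Q j) a b c d hdet hPQ
      exact ⟨K, fun _ => hK⟩
    · exact ⟨0, fun h => absurd h hj⟩
  choose K hK using hconst
  refine ⟨∑ j ∈ Finset.range (m + 1), C ((m.choose j : ℂ) * K j) *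
    (C (c : ℂ) * X + C (d : ℂ)) ^ j * (-(C (a : ℂ) * X + C (b : ℂ))) ^ (m - j), fun z hz => ?_⟩
  have hD := mobius_den_ne_zero c d hcd hz
  have hpoly : ((X - C z) ^ m : ℂ[X]) = ∑ j ∈ Finset.range (m + 1),
      C ((m.choose j : ℂ) * ((c : ℂ) * z + d) ^ j * (-((a : ℂ) * z + b)) ^ (m - j)) * Q j := by
    rw [X_sub_C_eq_mobius a b c d hdet z, add_pow]
    refine Finset.sum_congr rfl fun j _ => ?_
    simp only [hQ, mul_pow, ← C_pow, C_mul, ← C_eq_natCast]
    ring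
  rw [eichler_eq_prim hh' hg' m hz, hpoly, prim_sum_poly hh' hg' _ _ hz, eichler, Finset.mul_sum,
    eval_finsetSum, ← Finset.sum_add_distrib]
  refine Finset.sum_congr rfl fun j hj => ?_
  have hjm : j ≤ m := Nat.lt_succ_iff.mp (Finset.mem_range.mp hj)
  have hKj := hK j hjm z hz
  rw [prim_C_mul_poly hh' hg' _ _ hz]
  have hsplit : prim g (X ^ j) (((a : ℂ) * z + b) / ((c : ℂ) * z + d)) =
      prim g' (Q j) z + K j := by rw [← hKj]; ring
  rw [hsplit]
  simp only [eval_mul, eval_pow, eval_add, eval_C, eval_X, eval_neg]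
  have hpw : ((c : ℂ) * z + d) ^ m = ((c : ℂ) * z + d) ^ j * ((c : ℂ) * z + d) ^ (m - j) := by
    rw [← pow_add]; congr 1; omega
  have hneg : (-(((a : ℂ) * z + b) / ((c : ℂ) * z + d))) ^ (m - j) =
      (-((a : ℂ) * z + b)) ^ (m - j) / ((c : ℂ) * z + d) ^ (m - j) := by
    rw [← neg_div, div_pow]
  rw [hpw, hneg]
  generalize prim g' (Q j) z = R
  generalize (c : ℂ) * z + d = D at hD ⊢
  generalize (a : ℂ) * z + b = w
  field_simp

theorem eichler_differentiableAt {h : ℝ} (hh : 0 < h) {g : ℂ → ℂ} (hg : CuspLike h g) (m : ℕ)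
    {z : ℂ} (hz : 0 < z.im) : DifferentiableAt ℂ (eichler m g) z := by
  cases m with
  | zero => exact (eichler_zero_hasDerivAt hh hg hz).differentiableAt
  | succ m => exact (eichler_succ_hasDerivAt hh hg m hz).differentiableAt

open UpperHalfPlane in
open scoped Manifold in
/-- The Eichler integral, as a function on the upper half plane, is holomorphic. -/
theorem mdifferentiable_eichler {h : ℝ} (hh : 0 < h) {g : ℂ → ℂ} (hg : CuspLike h g) (m : ℕ) :
    MDiff (fun w : ℍ => eichler m g (w : ℂ)) := by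
  rw [UpperHalfPlane.mdifferentiable_iff]
  intro z hz
  have hev : (fun w : ℍ => eichler m g (w : ℂ)) ∘ ofComplex =ᶠ[𝓝 z] eichler m g := by
    filter_upwards [isOpen_U.mem_nhds hz] with w hw
    simp [ofComplex_apply_of_im_pos hw]
  exact ((eichler_differentiableAt hh hg m hz).congr_of_eventuallyEq hev).differentiableWithinAt

end analysis

section modular

open UpperHalfPlane ModularForm Matrix.SpecialLinearGroup CongruenceSubgroup
open scoped MatrixGroups Pointwise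

variable {N : ℕ} [NeZero N] {k : ℤ}

omit [NeZero N] in
/-- A cusp form of level `Γ₀(N)` is cusp-like of period one. -/
theorem cuspLike_one (f : CuspForm (Gamma0 N) k) : CuspLike 1 (⇑f ∘ ofComplex) :=
  cuspLike_of_cuspFormClass f one_pos (CongruenceSubgroup.one_mem_strictPeriods_Gamma0 N)

/-- Formula for the weight `-m` slash action of `SL(2, ℤ)`. -/
theorem slash_neg_apply (σ : SL(2, ℤ)) (G : ℍ → ℂ) (m : ℕ) (z : ℍ) :
    (G ∣[-(m : ℤ)] (mapGL ℝ σ)) z =
      (((σ 1 0 : ℤ) : ℂ) * z + ((σ 1 1 : ℤ) : ℂ)) ^ m * G (σ • z) := by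
  have := SL_slash_apply (k := -(m : ℤ)) (f := G) σ z
  refine this.trans ?_
  simp [denom, mul_comm]

/-- Formula for the weight `m + 2` slash action of `SL(2, ℤ)`. -/
theorem slash_pos_apply (σ : SL(2, ℤ)) (G : ℍ → ℂ) (m : ℕ) (z : ℍ) :
    (G ∣[((m : ℤ) + 2)] (mapGL ℝ σ)) z =
      ((((σ 1 0 : ℤ) : ℂ) * z + ((σ 1 1 : ℤ) : ℂ)) ^ (m + 2))⁻¹ * G (σ • z) := by
  have := SL_slash_apply (k := ((m : ℤ) + 2)) (f := G) σ z
  refine this.trans ?_
  have h2 : -((m : ℤ) + 2) = -((m + 2 : ℕ) : ℤ) := by push_cast; ring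
  rw [h2, zpow_neg, zpow_natCast]
  simp [denom, mul_comm]

theorem det_real (σ : SL(2, ℤ)) :
    ((σ 0 0 : ℤ) : ℝ) * ((σ 1 1 : ℤ) : ℝ) - ((σ 0 1 : ℤ) : ℝ) * ((σ 1 0 : ℤ) : ℝ) = 1 := by
  have h := σ.det_coe
  rw [Matrix.det_fin_two] at h
  exact_mod_cast h

/-- The expansion at the cusp `σ ∞` of the Eichler integral of a cusp form of weight `m + 2`:
the weight `-m` transform by `σ` is a cusp-like function plus a polynomial. -/
theorem exists_cusp_expansion (f : CuspForm (Gamma0 N) k) (m : ℕ) (hk : k = (m : ℤ) + 2)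
    (σ : SL(2, ℤ)) :
    ∃ (n : ℕ) (E : ℂ → ℂ) (p : ℂ[X]), 0 < n ∧ CuspLike (n : ℝ) E ∧
      ∀ z : ℍ, ((fun w : ℍ => eichler m (⇑f ∘ ofComplex) (w : ℂ)) ∣[-(m : ℤ)] (mapGL ℝ σ)) z =
        E z + p.eval (z : ℂ) := by
  subst hk
  obtain ⟨M, hM, hper⟩ := Subgroup.IsArithmetic.exists_nat_mem_strictPeriods_conj
    (Gamma0 N : Subgroup (GL (Fin 2) ℝ))
  have hMpos : (0 : ℝ) < (M : ℝ) := by exact_mod_cast hM
  set f' := CuspForm.translate f (mapGL ℝ σ) with hf'
  have hg : CuspLike 1 (⇑f ∘ ofComplex) := cuspLike_one f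
  have hg' : CuspLike (M : ℝ) (⇑f' ∘ ofComplex) := by
    refine cuspLike_of_cuspFormClass f' hMpos ?_
    have := hper σ⁻¹
    simpa using this
  have hdet := det_real σ
  have hrel : ∀ z : ℂ, 0 < z.im → (⇑f' ∘ ofComplex) z =
      (((((σ 1 0 : ℤ) : ℝ) : ℂ) * z + (((σ 1 1 : ℤ) : ℝ) : ℂ)) ^ (m + 2))⁻¹ *
        (⇑f ∘ ofComplex) (((((σ 0 0 : ℤ) : ℝ) : ℂ) * z + (((σ 0 1 : ℤ) : ℝ) : ℂ)) /
          ((((σ 1 0 : ℤ) : ℝ) : ℂ) * z + (((σ 1 1 : ℤ) : ℝ) : ℂ))) := by
    intro z hz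
    have h1 : (f' : ℍ → ℂ) = (⇑f) ∣[((m : ℤ) + 2)] (mapGL ℝ σ) := rfl
    have h2 : (((((σ 0 0 : ℤ) : ℝ) : ℂ) * z + (((σ 0 1 : ℤ) : ℝ) : ℂ)) /
          ((((σ 1 0 : ℤ) : ℝ) : ℂ) * z + (((σ 1 1 : ℤ) : ℝ) : ℂ))) =
        ((σ • (⟨z, hz⟩ : ℍ) : ℍ) : ℂ) := by
      rw [coe_specialLinearGroup_apply]
      simp
    simp only [Function.comp_apply]
    rw [h2, ofComplex_apply, ofComplex_apply_of_im_pos hz, h1, slash_pos_apply]
    simp
  obtain ⟨p, hp⟩ := eichler_mobius_expansion one_pos hMpos hg hg' m _ _ _ _ hdet hrel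
  obtain ⟨E, hE, hEeq⟩ := eichler_cuspLike hMpos hg' m
  refine ⟨M, E, p, hM, hE, fun z => ?_⟩
  rw [slash_neg_apply]
  have h3 := hp z z.im_pos
  rw [hEeq z z.im_pos] at h3
  rw [← h3]
  rw [coe_specialLinearGroup_apply]
  simp

end modular

end Fermat.Agent.S22.SeparationCusps
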