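import Mathlib
import Fermat.Agent.S22.Primitive
import Fermat.Agent.S22.SeparationDefs
import Fermat.Agent.S22.SeparationCusps
import Fermat.Agent.S22.CuspBound

/-!
# S22 separation: from slash invariance of the Eichler integral to vanishing of the cusp form

If the Eichler integral `eichlerH m f` of a cusp form `f` of weight `m + 2` and level `Γ₀(N)` is
invariant of weight `-m` under `Γ₀(N)`, then `f = 0`.
-/

set_option autoImplicit false

noncomputable section

namespace Fermat.Agent.S22.Separation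

open Complex Filter Topology Function Polynomial
open Fermat.Agent.S22.Primitive Fermat.Agent.S22.SeparationCusps
open UpperHalfPlane ModularForm Matrix.SpecialLinearGroup CongruenceSubgroup
open scoped MatrixGroups Manifold

variable {N : ℕ} [NeZero N]

omit [NeZero N] in
/-- The Eichler integral of a cusp form of level `Γ₀(N)` is holomorphic. -/
theorem mdifferentiable_eichlerH {k : ℤ} (f : CuspForm (Gamma0 N) k) (m : ℕ) :
    MDiff (eichlerH m f) :=
  mdifferentiable_eichler one_pos (cuspLike_one f) m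

/-- Expansion of the Eichler integral at every cusp. -/
theorem eichlerH_cusp_expansion (m : ℕ) (k : ℤ) (hk : k = (m : ℤ) + 2)
    (f : CuspForm (Gamma0 N) k) (σ : SL(2, ℤ)) :
    ∃ (h : ℝ) (E : ℂ → ℂ) (p : ℂ[X]), 0 < h ∧ CuspLike h E ∧
      ∀ z : ℍ, (eichlerH m f ∣[-(m : ℤ)] (mapGL ℝ σ)) z = E (z : ℂ) + p.eval (z : ℂ) := by
  obtain ⟨n, E, p, hn, hE, hEp⟩ := exists_cusp_expansion f m hk σ
  exact ⟨n, E, p, by exact_mod_cast hn, hE, hEp⟩

/-- If the Eichler integral of `f` is invariant of weight `-m` under `Γ₀(N)` (as a subgroup of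
`GL(2, ℝ)`), then it is constant. -/
theorem eichlerH_eq_const_of_invariant' (m : ℕ) (k : ℤ) (hk : k = (m : ℤ) + 2)
    (f : CuspForm (Gamma0 N) k)
    (hinv : ∀ γ ∈ (Gamma0 N : Subgroup (GL (Fin 2) ℝ)),
      eichlerH m f ∣[-(m : ℤ)] γ = eichlerH m f) :
    ∃ c : ℂ, ∀ z : ℍ, eichlerH m f z = c := by
  have hm : -(m : ℤ) ≤ 0 := by omega
  obtain ⟨c, hc, -⟩ := CuspBound.eq_const_of_cusp_expansions (N := N) hm (eichlerH m f)
    (mdifferentiable_eichlerH f m) hinv (eichlerH_cusp_expansion m k hk f)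
  exact ⟨c, hc⟩

/-- If the Eichler integral of `f` is invariant of weight `-m` under `Γ₀(N)` (as a subgroup of
`GL(2, ℝ)`), then `f = 0`. -/
theorem eq_zero_of_eichlerH_invariant' (m : ℕ) (k : ℤ) (hk : k = (m : ℤ) + 2)
    (f : CuspForm (Gamma0 N) k)
    (hinv : ∀ γ ∈ (Gamma0 N : Subgroup (GL (Fin 2) ℝ)),
      eichlerH m f ∣[-(m : ℤ)] γ = eichlerH m f) : f = 0 := by
  obtain ⟨c, hc⟩ := eichlerH_eq_const_of_invariant' m k hk f hinv
  have h0 := eq_zero_of_eichler_eq_const one_pos (cuspLike_one f) m c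
    (fun z hz => by simpa [eichlerH_apply] using hc ⟨z, hz⟩)
  ext z
  have := h0 (z : ℂ) z.im_pos
  simpa using this

/-- Version with invariance stated for the `SL(2, ℤ)` slash action. -/
theorem eq_zero_of_eichlerH_invariant (m : ℕ) (k : ℤ) (hk : k = (m : ℤ) + 2)
    (f : CuspForm (Gamma0 N) k)
    (hinv : ∀ γ ∈ Gamma0 N, eichlerH m f ∣[-(m : ℤ)] γ = eichlerH m f) : f = 0 := by
  refine eq_zero_of_eichlerH_invariant' m k hk f fun γ hγ => ?_
  obtain ⟨γ', hγ', rfl⟩ := Subgroup.mem_map.mp hγ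
  exact hinv γ' hγ'

/-- Boundedness at `i∞` of every `SL(2, ℤ)`-translate of an invariant Eichler integral. -/
theorem isBoundedAtImInfty_eichlerH_slash (m : ℕ) (k : ℤ) (hk : k = (m : ℤ) + 2)
    (f : CuspForm (Gamma0 N) k)
    (hinv : ∀ γ ∈ Gamma0 N, eichlerH m f ∣[-(m : ℤ)] γ = eichlerH m f) (σ : SL(2, ℤ)) :
    IsBoundedAtImInfty (eichlerH m f ∣[-(m : ℤ)] σ) := by
  have h0 := eq_zero_of_eichlerH_invariant m k hk f hinv
  subst h0
  have hz : eichlerH m (⇑(0 : CuspForm (Gamma0 N) k)) = 0 := by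
    funext z
    have hc : CuspLike 1 (fun _ : ℂ => (0 : ℂ)) := cuspLike_zero 1
    have h1 : ((⇑(0 : CuspForm (Gamma0 N) k)) ∘ ofComplex) = fun _ : ℂ => (0 : ℂ) := by
      funext w; simp
    rw [eichlerH_apply, h1, eichler_eq_prim one_pos hc m z.im_pos]
    have h2 := prim_smul_fun one_pos hc 0 ((X - C (z : ℂ)) ^ m) z.im_pos
    simpa using h2
  rw [hz, SlashAction.zero_slash]
  exact zero_form_isBoundedAtImInfty

end Fermat.Agent.S22.Separation
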